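import Mathlib

/-!
# A Lipschitz partition of unity subordinate to a `ℤ`-lattice

For a `ℤ`-lattice `L` in a finite dimensional real normed space `E` we construct `h : E → ℝ`,
nonnegative, bounded by `1`, Lipschitz, with bounded support, such that
`∑' γ : L, h (y + γ) = 1` for every `y`.
-/

namespace Fermat.Agent.S14.H12

open Module

/-- The tent function `max 0 (1 - |t|)`. -/
noncomputable def tent (t : ℝ) : ℝ := max 0 (1 - |t|)

theorem tent_nonneg (t : ℝ) : 0 ≤ tent t := le_max_left _ _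

theorem tent_le_one (t : ℝ) : tent t ≤ 1 :=
  max_le zero_le_one (by linarith [abs_nonneg t])

theorem tent_eq_zero {t : ℝ} (ht : 1 ≤ |t|) : tent t = 0 :=
  max_eq_left (by linarith)

theorem tent_of_nonneg_le {t : ℝ} (h0 : 0 ≤ t) (h1 : t ≤ 1) : tent t = 1 - t := by
  rw [tent, abs_of_nonneg h0, max_eq_right (by linarith)]

theorem tent_of_nonpos_ge {t : ℝ} (h0 : t ≤ 0) (h1 : -1 ≤ t) : tent t = 1 + t := by
  rw [tent, abs_of_nonpos h0, max_eq_right (by linarith)]
  ring

theorem abs_tent_sub_tent_le (s t : ℝ) : |tent s - tent t| ≤ |s - t| := by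
  unfold tent
  rw [max_comm 0, max_comm 0]
  refine (abs_max_sub_max_le_abs _ _ _).trans ?_
  have : (1 - |s|) - (1 - |t|) = -(|s| - |t|) := by ring
  rw [this, abs_neg]
  exact abs_abs_sub_abs_le_abs_sub s t

theorem tent_eq_zero_of_notMem {t : ℝ} {n : ℤ} (hn : n ∉ ({-⌊t⌋ - 1, -⌊t⌋} : Finset ℤ)) :
    tent (t + n) = 0 := by
  apply tent_eq_zero
  simp only [Finset.mem_insert, Finset.mem_singleton, not_or] at hn
  obtain ⟨h1, h2⟩ := hn
  have hf0 := Int.fract_nonneg t
  have hf1 := Int.fract_lt_one t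
  have ht : t = ⌊t⌋ + Int.fract t := (Int.floor_add_fract t).symm
  rcases lt_trichotomy (n + ⌊t⌋) (-1) with h | h | h
  · have h' : (n + ⌊t⌋ : ℤ) ≤ -2 := by omega
    have h'' : ((n + ⌊t⌋ : ℤ) : ℝ) ≤ -2 := by exact_mod_cast h'
    push_cast at h''
    rw [abs_of_nonpos (by linarith)]
    linarith
  · exact absurd (by omega) h1
  · have h' : (0 : ℤ) ≤ n + ⌊t⌋ := by omega
    rcases eq_or_lt_of_le h' with h0 | h0
    · exact absurd (by omega) h2
    · have h'' : ((1 : ℤ) : ℝ) ≤ ((n + ⌊t⌋ : ℤ) : ℝ) := by exact_mod_cast h0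
      push_cast at h''
      rw [abs_of_nonneg (by linarith)]
      linarith

theorem sum_tent (t : ℝ) : ∑ n ∈ ({-⌊t⌋ - 1, -⌊t⌋} : Finset ℤ), tent (t + n) = 1 := by
  have hf0 := Int.fract_nonneg t
  have hf1 := Int.fract_lt_one t
  have ht : t = ⌊t⌋ + Int.fract t := (Int.floor_add_fract t).symm
  rw [Finset.sum_pair (by omega)]
  have e1 : t + ((-⌊t⌋ - 1 : ℤ) : ℝ) = Int.fract t - 1 := by push_cast; linarith
  have e2 : t + ((-⌊t⌋ : ℤ) : ℝ) = Int.fract t := by push_cast; linarith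
  rw [e1, e2, tent_of_nonpos_ge (by linarith) (by linarith), tent_of_nonneg_le hf0 hf1.le]
  ring

theorem abs_prod_sub_prod_le {ι : Type*} (s : Finset ι) (f g : ι → ℝ)
    (hf0 : ∀ i, 0 ≤ f i) (hf1 : ∀ i, f i ≤ 1) (hg0 : ∀ i, 0 ≤ g i) (hg1 : ∀ i, g i ≤ 1) :
    |∏ i ∈ s, f i - ∏ i ∈ s, g i| ≤ ∑ i ∈ s, |f i - g i| := by
  classical
  induction s using Finset.induction_on with
  | empty => simp
  | insert a s ha ih =>
    rw [Finset.prod_insert ha, Finset.prod_insert ha, Finset.sum_insert ha]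
    have hP0 : 0 ≤ ∏ i ∈ s, f i := Finset.prod_nonneg fun i _ => hf0 i
    have hP1 : ∏ i ∈ s, f i ≤ 1 := Finset.prod_le_one (fun i _ => hf0 i) fun i _ => hf1 i
    have e : f a * ∏ i ∈ s, f i - g a * ∏ i ∈ s, g i =
        (f a - g a) * ∏ i ∈ s, f i + g a * (∏ i ∈ s, f i - ∏ i ∈ s, g i) := by ring
    rw [e]
    refine (abs_add_le _ _).trans ?_
    rw [abs_mul, abs_mul, abs_of_nonneg hP0, abs_of_nonneg (hg0 a)]
    have h1 : |f a - g a| * ∏ i ∈ s, f i ≤ |f a - g a| :=
      mul_le_of_le_one_right (abs_nonneg _) hP1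
    have h2 : g a * |∏ i ∈ s, f i - ∏ i ∈ s, g i| ≤ |∏ i ∈ s, f i - ∏ i ∈ s, g i| :=
      mul_le_of_le_one_left (abs_nonneg _) (hg1 a)
    linarith

section Lattice

variable {E : Type*} [NormedAddCommGroup E] [NormedSpace ℝ E] [FiniteDimensional ℝ E]

/-- A Lipschitz partition of unity subordinate to a `ℤ`-lattice. -/
theorem exists_cutoff (L : Submodule ℤ E) [DiscreteTopology L] [IsZLattice ℝ L] :
    ∃ h : E → ℝ, (∀ y, 0 ≤ h y) ∧ (∀ y, h y ≤ 1) ∧ (∃ R : ℝ, ∀ y, h y ≠ 0 → ‖y‖ ≤ R) ∧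
      (∃ Lh : ℝ, 0 ≤ Lh ∧ ∀ y y', |h y - h y'| ≤ Lh * ‖y - y'‖) ∧
      (∀ y, Summable fun γ : L => h (y + γ)) ∧ (∀ y, ∑' γ : L, h (y + γ) = 1) := by
  classical
  let I := Module.Free.ChooseBasisIndex ℤ L
  let b : Basis I ℤ L := Module.Free.chooseBasis ℤ L
  let B : Basis I ℝ E := b.ofZLatticeBasis ℝ L
  let h : E → ℝ := fun y => ∏ i, tent (B.repr y i)
  have hrepr : ∀ (y : E) (γ : L) (i : I), B.repr (y + γ) i = B.repr y i + ((b.repr γ i : ℤ) : ℝ) := by
    intro y γ i
    rw [map_add, Finsupp.add_apply, Basis.ofZLatticeBasis_repr_apply]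
  refine ⟨h, fun y => Finset.prod_nonneg fun i _ => tent_nonneg _,
    fun y => Finset.prod_le_one (fun i _ => tent_nonneg _) fun i _ => tent_le_one _, ?_, ?_, ?_⟩
  · refine ⟨∑ i, ‖B i‖, fun y hy => ?_⟩
    have hc : ∀ i, |B.repr y i| ≤ 1 := by
      intro i
      by_contra hi
      exact hy (Finset.prod_eq_zero (Finset.mem_univ i) (tent_eq_zero (not_le.mp hi).le))
    conv_lhs => rw [← B.sum_repr y]
    refine (norm_sum_le _ _).trans (Finset.sum_le_sum fun i _ => ?_)
    rw [norm_smul, Real.norm_eq_abs]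
    exact mul_le_of_le_one_left (norm_nonneg _) (hc i)
  · refine ⟨∑ i, ‖LinearMap.toContinuousLinearMap (B.coord i)‖, by positivity, fun y y' => ?_⟩
    refine (abs_prod_sub_prod_le _ _ _ (fun i => tent_nonneg _) (fun i => tent_le_one _)
      (fun i => tent_nonneg _) (fun i => tent_le_one _)).trans ?_
    rw [Finset.sum_mul]
    refine Finset.sum_le_sum fun i _ => ?_
    refine (abs_tent_sub_tent_le _ _).trans ?_
    have h1 : B.repr y i - B.repr y' i = LinearMap.toContinuousLinearMap (B.coord i) (y - y') := by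
      simp [Basis.coord_apply]
    rw [h1, ← Real.norm_eq_abs]
    exact ContinuousLinearMap.le_opNorm _ _
  · -- the sum identity
    have key : ∀ y : E, HasSum (fun γ : L => h (y + γ)) 1 := by
      intro y
      let e : L ≃ (I → ℤ) := b.equivFun.toEquiv
      have he : ∀ γ : L, h (y + γ) = ∏ i, tent (B.repr y i + ((e γ i : ℤ) : ℝ)) := by
        intro γ
        simp only [h]
        refine Finset.prod_congr rfl fun i _ => ?_
        rw [hrepr]
        rfl
      have hs : HasSum (fun n : I → ℤ => ∏ i, tent (B.repr y i + ((n i : ℤ) : ℝ))) 1 := by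
        let S : I → Finset ℤ := fun i => {-⌊B.repr y i⌋ - 1, -⌊B.repr y i⌋}
        have h0 : ∀ n : I → ℤ, n ∉ Fintype.piFinset S →
            ∏ i, tent (B.repr y i + ((n i : ℤ) : ℝ)) = 0 := by
          intro n hn
          rw [Fintype.mem_piFinset] at hn
          push Not at hn
          obtain ⟨i, hi⟩ := hn
          exact Finset.prod_eq_zero (Finset.mem_univ i) (tent_eq_zero_of_notMem hi)
        have h1 : ∑ n ∈ Fintype.piFinset S, ∏ i, tent (B.repr y i + ((n i : ℤ) : ℝ)) = 1 := by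
          rw [← Finset.prod_univ_sum S (fun i n => tent (B.repr y i + ((n : ℤ) : ℝ)))]
          exact Finset.prod_eq_one fun i _ => sum_tent _
        rw [← h1]
        exact hasSum_sum_of_ne_finset_zero h0
      have := (e.hasSum_iff (f := fun n : I → ℤ => ∏ i, tent (B.repr y i + ((n i : ℤ) : ℝ)))
        (a := 1)).mpr hs
      have h2 : (fun γ : L => h (y + γ)) =
          (fun n : I → ℤ => ∏ i, tent (B.repr y i + ((n i : ℤ) : ℝ))) ∘ e := funext he
      rw [h2]
      exact this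
    exact ⟨fun y => (key y).summable, fun y => (key y).tsum_eq⟩

end Lattice

end Fermat.Agent.S14.H12
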