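import Mathlib

/-!
# Elementary real inequalities used to compare partial zeta functions
-/

namespace Fermat.Agent.S14.H12

/-- `N ^ (1 - s) ≤ 1 - (s - 1) / 2` for `N ≥ 2` and `1 ≤ s ≤ 2`. -/
theorem rpow_one_sub_le {N s : ℝ} (hN : 2 ≤ N) (hs1 : 1 ≤ s) (hs2 : s ≤ 2) :
    N ^ (1 - s) ≤ 1 - (s - 1) / 2 := by
  have h1 : N ^ (1 - s) ≤ (2 : ℝ) ^ (1 - s) :=
    Real.rpow_le_rpow_of_nonpos (by norm_num) hN (by linarith)
  have h2 : (2 : ℝ) ^ (1 - s) = (1 + (-1 / 2 : ℝ)) ^ (s - 1) := by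
    have : (1 + (-1 / 2 : ℝ)) = (2 : ℝ)⁻¹ := by norm_num
    rw [this, Real.inv_rpow (by norm_num), ← Real.rpow_neg (by norm_num)]
    congr 1; ring
  have h3 : (1 + (-1 / 2 : ℝ)) ^ (s - 1) ≤ 1 + (s - 1) * (-1 / 2) :=
    rpow_one_add_le_one_add_mul_self (by norm_num) (by linarith) (by linarith)
  rw [h2] at h1
  linarith

/-- `1 - N ^ (1 - s) ≤ (s - 1) * log N` for `N > 0`. -/
theorem one_sub_rpow_le {N s : ℝ} (hN : 0 < N) : 1 - N ^ (1 - s) ≤ (s - 1) * Real.log N := by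
  rw [Real.rpow_def_of_pos hN]
  have := Real.add_one_le_exp (Real.log N * (1 - s))
  linarith

/-- A priori bound: `(s - 1) Z ≤ 2 (K₁ + K₂) + K₁`. -/
theorem apriori_bound {Z P N s K₁ K₂ : ℝ} (hN : 2 ≤ N) (hs1 : 1 < s) (hs2 : s ≤ 2)
    (hP : 0 ≤ P) (h1 : |Z - P| ≤ K₁) (h2 : |Z - N * (N ^ (-s) * P)| ≤ K₂) :
    (s - 1) * Z ≤ 2 * (K₁ + K₂) + K₁ := by
  have hN0 : 0 < N := by linarith
  have hq : N * N ^ (-s) = N ^ (1 - s) := by
    rw [sub_eq_add_neg, Real.rpow_add hN0, Real.rpow_one]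
  rw [← mul_assoc, hq] at h2
  have hq1 := rpow_one_sub_le hN hs1.le hs2
  have a1 := abs_le.mp h1
  have a2 := abs_le.mp h2
  have hK1 : 0 ≤ K₁ := (abs_nonneg _).trans h1
  have h3 : (s - 1) / 2 * P ≤ K₁ + K₂ := by
    have : (s - 1) / 2 * P ≤ (1 - N ^ (1 - s)) * P :=
      mul_le_mul_of_nonneg_right (by linarith) hP
    nlinarith [a1.1, a1.2, a2.1, a2.2]
  have h4 : Z ≤ P + K₁ := by linarith [a1.2]
  have h5 : (s - 1) * Z ≤ (s - 1) * (P + K₁) :=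
    mul_le_mul_of_nonneg_left h4 (by linarith)
  nlinarith

/-- Removing the factor `N ^ (1 - s)`. -/
theorem abs_sub_le_of_twisted {Z P N s M Kc : ℝ} (hN : 1 ≤ N) (hs1 : 1 < s) (hs2 : s ≤ 2)
    (hP : 0 ≤ P) (hM : (s - 1) * Z ≤ M) (h : |Z - N * (N ^ (-s) * P)| ≤ Kc) :
    |Z - P| ≤ Kc + Real.log N * N * (M + Kc) := by
  have hN0 : 0 < N := by linarith
  have hq : N * N ^ (-s) = N ^ (1 - s) := by
    rw [sub_eq_add_neg, Real.rpow_add hN0, Real.rpow_one]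
  rw [← mul_assoc, hq] at h
  have hKc : 0 ≤ Kc := (abs_nonneg _).trans h
  have a := abs_le.mp h
  set q : ℝ := N ^ (1 - s) with hq'
  have hq0 : 0 < q := Real.rpow_pos_of_pos hN0 _
  have hq1 : q ≤ 1 := Real.rpow_le_one_of_one_le_of_nonpos hN (by linarith)
  have hlog : 0 ≤ Real.log N := Real.log_nonneg hN
  -- `P ≤ N (Z + Kc)`
  have hZK : 0 ≤ Z + Kc := by nlinarith [a.1, a.2]
  have hqinv : q⁻¹ ≤ N := by
    rw [hq', ← Real.rpow_neg hN0.le]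
    calc N ^ (-(1 - s)) ≤ N ^ (1 : ℝ) :=
          Real.rpow_le_rpow_of_exponent_le hN (by linarith)
      _ = N := Real.rpow_one N
  have hP' : P ≤ N * (Z + Kc) := by
    have h1 : q * P ≤ Z + Kc := by linarith [a.1]
    calc P = q⁻¹ * (q * P) := by field_simp
      _ ≤ q⁻¹ * (Z + Kc) := mul_le_mul_of_nonneg_left h1 (inv_nonneg.mpr hq0.le)
      _ ≤ N * (Z + Kc) := mul_le_mul_of_nonneg_right hqinv hZK
  have hone : 1 - q ≤ (s - 1) * Real.log N := one_sub_rpow_le hN0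
  have h1q : 0 ≤ 1 - q := by linarith
  -- `(1 - q) P ≤ log N * N * (M + Kc)`
  have h6 : (1 - q) * P ≤ Real.log N * N * (M + Kc) := by
    calc (1 - q) * P ≤ ((s - 1) * Real.log N) * (N * (Z + Kc)) :=
          mul_le_mul hone hP' hP (mul_nonneg (by linarith) hlog)
      _ = Real.log N * N * ((s - 1) * Z + (s - 1) * Kc) := by ring
      _ ≤ Real.log N * N * (M + Kc) := by
          refine mul_le_mul_of_nonneg_left ?_ (mul_nonneg hlog hN0.le)
          have : (s - 1) * Kc ≤ 1 * Kc := mul_le_mul_of_nonneg_right (by linarith) hKc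
          linarith
  rw [abs_le]
  constructor
  · nlinarith [a.1, a.2]
  · nlinarith [a.1, a.2]

end Fermat.Agent.S14.H12
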