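import Mathlib

/-!
# A Lipschitz decay estimate for weighted inverse norm powers

Abstract setting: a finite family of "absolute values" `ν v : E → ℝ` on a normed group, with
multiplicities `m v`, the "norm" `N x = ∏ v, ν v x ^ m v`, and a weight `g` supported in the
region where all `ν v x` are comparable with `‖x‖`.  We show that `x ↦ g x * N x ^ (-s)` satisfies
a Lipschitz estimate with decay `‖x‖ ^ (-(n+1))`, uniformly for `s ∈ [1, 2]`.
-/

namespace Fermat.Agent.S14.H12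

theorem abs_log_sub_log_le {a b c : ℝ} (hc : 0 < c) (ha : c ≤ a) (hb : c ≤ b) :
    |Real.log a - Real.log b| ≤ |a - b| / c := by
  have key : ∀ a b : ℝ, c ≤ a → a ≤ b → Real.log b - Real.log a ≤ (b - a) / c := by
    intro a b ha hab
    have ha0 : 0 < a := lt_of_lt_of_le hc ha
    have hb0 : 0 < b := lt_of_lt_of_le ha0 hab
    have h1 : Real.log (b / a) ≤ b / a - 1 := Real.log_le_sub_one_of_pos (div_pos hb0 ha0)
    rw [Real.log_div hb0.ne' ha0.ne'] at h1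
    have h2 : b / a - 1 = (b - a) / a := by field_simp
    rw [h2] at h1
    refine h1.trans ?_
    exact div_le_div_of_nonneg_left (by linarith) hc ha
  rcases le_total a b with hab | hab
  · rw [abs_sub_comm, abs_of_nonneg (sub_nonneg.mpr (Real.log_le_log (lt_of_lt_of_le hc ha) hab)),
      abs_sub_comm, abs_of_nonneg (sub_nonneg.mpr hab)]
    exact key a b ha hab
  · rw [abs_of_nonneg (sub_nonneg.mpr (Real.log_le_log (lt_of_lt_of_le hc hb) hab)),
      abs_of_nonneg (sub_nonneg.mpr hab)]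
    exact key b a hb hab

theorem abs_exp_sub_exp_le (p q : ℝ) :
    |Real.exp p - Real.exp q| ≤ |p - q| * max (Real.exp p) (Real.exp q) := by
  have key : ∀ p q : ℝ, p ≤ q → Real.exp q - Real.exp p ≤ (q - p) * Real.exp q := by
    intro p q hpq
    have h1 : p - q + 1 ≤ Real.exp (p - q) := Real.add_one_le_exp _
    have h2 : Real.exp p = Real.exp (p - q) * Real.exp q := by
      rw [← Real.exp_add]; congr 1; ring
    have h3 : 0 < Real.exp q := Real.exp_pos q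
    nlinarith
  rcases le_total p q with hpq | hpq
  · rw [abs_sub_comm, abs_of_nonneg (sub_nonneg.mpr (Real.exp_le_exp.mpr hpq)),
      abs_sub_comm, abs_of_nonneg (sub_nonneg.mpr hpq), max_eq_right (Real.exp_le_exp.mpr hpq)]
    exact key p q hpq
  · rw [abs_of_nonneg (sub_nonneg.mpr (Real.exp_le_exp.mpr hpq)),
      abs_of_nonneg (sub_nonneg.mpr hpq), max_eq_left (Real.exp_le_exp.mpr hpq)]
    exact key q p hpq

section Abstract

variable {P E : Type*} [Fintype P] [NormedAddCommGroup E]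

theorem abs_log_prod_sub_le (ν : P → E → ℝ) (m : P → ℕ)
    (hνsub : ∀ v x y, |ν v x - ν v y| ≤ ‖x - y‖) {c : ℝ} (hc : 0 < c) {x y : E}
    (hx : ∀ v, c ≤ ν v x) (hy : ∀ v, c ≤ ν v y) :
    |Real.log (∏ v, ν v x ^ m v) - Real.log (∏ v, ν v y ^ m v)| ≤
      ((∑ v, m v : ℕ) : ℝ) * ‖x - y‖ / c := by
  have hx0 : ∀ v, ν v x ≠ 0 := fun v => (lt_of_lt_of_le hc (hx v)).ne'
  have hy0 : ∀ v, ν v y ≠ 0 := fun v => (lt_of_lt_of_le hc (hy v)).ne'
  rw [Real.log_prod (fun v _ => pow_ne_zero _ (hx0 v)),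
    Real.log_prod (fun v _ => pow_ne_zero _ (hy0 v)), ← Finset.sum_sub_distrib]
  refine (Finset.abs_sum_le_sum_abs _ _).trans ?_
  push_cast
  rw [Finset.sum_mul, Finset.sum_div]
  refine Finset.sum_le_sum fun v _ => ?_
  rw [Real.log_pow, Real.log_pow, ← mul_sub, abs_mul, Nat.abs_cast, mul_div_assoc]
  refine mul_le_mul_of_nonneg_left ?_ (Nat.cast_nonneg _)
  refine (abs_log_sub_log_le hc (hx v) (hy v)).trans ?_
  exact div_le_div_of_nonneg_right (hνsub v x y) hc.le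

omit [NormedAddCommGroup E] in
theorem pow_le_prod_pow (ν : P → E → ℝ) (m : P → ℕ) {c : ℝ} (hc : 0 < c) {x : E}
    (hx : ∀ v, c ≤ ν v x) : c ^ (∑ v, m v) ≤ ∏ v, ν v x ^ m v := by
  rw [← Finset.prod_pow_eq_pow_sum]
  exact Finset.prod_le_prod (fun v _ => pow_nonneg hc.le _)
    fun v _ => pow_le_pow_left₀ hc.le (hx v) _

/-- `(a ρ)^(-n s) ≤ a^(-2n) ρ^(-n)` for `0 < a ≤ 1 ≤ ρ`, `1 ≤ s ≤ 2`. -/
theorem rpow_neg_le_aux (n : ℕ) {a ρ s : ℝ} (ha : 0 < a) (ha1 : a ≤ 1) (hρ : 1 ≤ ρ)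
    (hs1 : 1 ≤ s) (hs2 : s ≤ 2) :
    ((a * ρ) ^ n) ^ (-s) ≤ (a ^ (2 * n))⁻¹ * ρ ^ (-(n : ℝ)) := by
  have hρ0 : 0 < ρ := by linarith
  have h1 : ((a * ρ) ^ n) ^ (-s) = a ^ (-((n : ℝ) * s)) * ρ ^ (-((n : ℝ) * s)) := by
    rw [← Real.rpow_natCast, ← Real.rpow_mul (mul_pos ha hρ0).le,
      Real.mul_rpow ha.le hρ0.le, mul_neg]
  have h2 : a ^ (-((n : ℝ) * s)) ≤ (a ^ (2 * n))⁻¹ := by
    have : (a ^ (2 * n))⁻¹ = a ^ (-((2 * n : ℕ) : ℝ)) := by
      rw [Real.rpow_neg ha.le, Real.rpow_natCast]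
    rw [this]
    apply Real.rpow_le_rpow_of_exponent_ge ha ha1
    push_cast
    have hn : (0 : ℝ) ≤ n := Nat.cast_nonneg n
    nlinarith
  have h3 : ρ ^ (-((n : ℝ) * s)) ≤ ρ ^ (-(n : ℝ)) := by
    apply Real.rpow_le_rpow_of_exponent_le hρ
    have hn : (0 : ℝ) ≤ n := Nat.cast_nonneg n
    nlinarith
  rw [h1]
  exact mul_le_mul h2 h3 (Real.rpow_nonneg hρ0.le _) (inv_nonneg.mpr (pow_nonneg ha.le _))

omit [NormedAddCommGroup E] in
/-- If all `ν v x ≥ a ρ` then `N x ^ (-s) ≤ a^(-2n) ρ^(-n)`. -/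
theorem prod_rpow_neg_le (ν : P → E → ℝ) (m : P → ℕ) {a ρ s : ℝ} (ha : 0 < a) (ha1 : a ≤ 1)
    (hρ : 1 ≤ ρ) (hs1 : 1 ≤ s) (hs2 : s ≤ 2) {x : E} (hx : ∀ v, a * ρ ≤ ν v x) :
    (∏ v, ν v x ^ m v) ^ (-s) ≤ (a ^ (2 * ∑ v, m v))⁻¹ * ρ ^ (-((∑ v, m v : ℕ) : ℝ)) := by
  have hc : 0 < a * ρ := mul_pos ha (by linarith)
  refine le_trans ?_ (rpow_neg_le_aux (∑ v, m v) ha ha1 hρ hs1 hs2)
  exact Real.rpow_le_rpow_of_nonpos (pow_pos hc _) (pow_le_prod_pow ν m hc hx) (by linarith)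

/-- **Lipschitz decay**, abstract form. -/
theorem exists_lipschitz_decay (ν : P → E → ℝ) (m : P → ℕ)
    (hνsub : ∀ v x y, |ν v x - ν v y| ≤ ‖x - y‖)
    (κ L : ℝ) (hκ : 0 < κ) (hκ1 : κ ≤ 1) :
    ∃ C : ℝ, 0 ≤ C ∧ ∀ g : E → ℝ, (∀ x, 0 ≤ g x) → (∀ x, g x ≤ 1) →
      (∀ x, g x ≠ 0 → ∀ v, κ * ‖x‖ ≤ ν v x) →
      (∀ (c : ℝ) (x y : E), 0 < c → (∀ v, c ≤ ν v x) → (∀ v, c ≤ ν v y) →
        |g x - g y| ≤ L * ‖x - y‖ / c) →
      ∀ s : ℝ, 1 ≤ s → s ≤ 2 →
        (∀ x : E, 1 ≤ ‖x‖ → |g x * (∏ v, ν v x ^ m v) ^ (-s)| ≤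
          (κ ^ (2 * ∑ v, m v))⁻¹ * ‖x‖ ^ (-((∑ v, m v : ℕ) : ℝ))) ∧
        ∀ x y : E, 1 ≤ ‖x‖ → 1 ≤ ‖y‖ →
          |g x * (∏ v, ν v x ^ m v) ^ (-s) - g y * (∏ v, ν v y ^ m v) ^ (-s)| ≤
            C * ‖x - y‖ * (min ‖x‖ ‖y‖) ^ (-(((∑ v, m v : ℕ) : ℝ) + 1)) := by
  set n : ℕ := ∑ v, m v with hn
  set A1 : ℝ := (κ ^ (2 * n))⁻¹ with hA1
  set A2 : ℝ := ((κ / 2) ^ (2 * n))⁻¹ with hA2
  have hA1pos : 0 < A1 := inv_pos.mpr (pow_pos hκ _)
  have hA2pos : 0 < A2 := inv_pos.mpr (pow_pos (half_pos hκ) _)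
  set C : ℝ := 4 * A1 / κ + (|L| + 2 * n) * (2 / κ) * A2 with hC
  have hC0 : 0 ≤ C := by positivity
  refine ⟨C, hC0, fun g hg0 hg1 hgs hgl s hs1 hs2 => ?_⟩
  -- notation
  set N : E → ℝ := fun x => ∏ v, ν v x ^ m v with hN
  -- pointwise bound
  have hbound : ∀ x : E, 1 ≤ ‖x‖ → |g x * N x ^ (-s)| ≤ A1 * ‖x‖ ^ (-(n : ℝ)) := by
    intro x hx
    by_cases hgx : g x = 0
    · rw [hgx, zero_mul, abs_zero]
      exact mul_nonneg hA1pos.le (Real.rpow_nonneg (norm_nonneg _) _)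
    · have h1 := prod_rpow_neg_le ν m hκ hκ1 hx hs1 hs2 (hgs x hgx)
      have hNx : 0 < N x := lt_of_lt_of_le (pow_pos (mul_pos hκ (by linarith)) _)
        (pow_le_prod_pow ν m (mul_pos hκ (by linarith)) (hgs x hgx))
      rw [abs_mul, abs_of_nonneg (hg0 x), abs_of_nonneg (Real.rpow_nonneg hNx.le _)]
      calc g x * N x ^ (-s) ≤ 1 * N x ^ (-s) :=
            mul_le_mul_of_nonneg_right (hg1 x) (Real.rpow_nonneg hNx.le _)
        _ = N x ^ (-s) := one_mul _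
        _ ≤ A1 * ‖x‖ ^ (-(n : ℝ)) := h1
  refine ⟨hbound, ?_⟩
  -- the asymmetric statement
  have aux : ∀ x y : E, 1 ≤ ‖x‖ → 1 ≤ ‖y‖ → g x ≠ 0 →
      |g x * N x ^ (-s) - g y * N y ^ (-s)| ≤
        C * ‖x - y‖ * (min ‖x‖ ‖y‖) ^ (-((n : ℝ) + 1)) := by
    intro x y hx hy hgx
    set μ : ℝ := min ‖x‖ ‖y‖ with hμ
    have hμ1 : 1 ≤ μ := le_min hx hy
    have hμ0 : 0 < μ := by linarith
    have hμx : μ ≤ ‖x‖ := min_le_left _ _
    have hμy : μ ≤ ‖y‖ := min_le_right _ _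
    have hpow : μ ^ (-((n : ℝ) + 1)) = μ ^ (-(n : ℝ)) * μ⁻¹ := by
      rw [neg_add, Real.rpow_add hμ0, Real.rpow_neg_one]
    have hμn : 0 ≤ μ ^ (-(n : ℝ)) := Real.rpow_nonneg hμ0.le _
    have hd : 0 ≤ ‖x - y‖ := norm_nonneg _
    have hxv : ∀ v, κ * μ ≤ ν v x := fun v =>
      le_trans (mul_le_mul_of_nonneg_left hμx hκ.le) (hgs x hgx v)
    by_cases hfar : κ / 2 * μ ≤ ‖x - y‖
    · -- far apart: use the pointwise bounds
      have h1 : |g x * N x ^ (-s)| ≤ A1 * μ ^ (-(n : ℝ)) :=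
        (hbound x hx).trans (mul_le_mul_of_nonneg_left
          (Real.rpow_le_rpow_of_nonpos hμ0 hμx (by simp)) hA1pos.le)
      have h2 : |g y * N y ^ (-s)| ≤ A1 * μ ^ (-(n : ℝ)) :=
        (hbound y hy).trans (mul_le_mul_of_nonneg_left
          (Real.rpow_le_rpow_of_nonpos hμ0 hμy (by simp)) hA1pos.le)
      have h3 : |g x * N x ^ (-s) - g y * N y ^ (-s)| ≤ 2 * A1 * μ ^ (-(n : ℝ)) := by
        refine (abs_sub _ _).trans ?_
        linarith
      have h4 : (1 : ℝ) ≤ 2 / κ * ‖x - y‖ * μ⁻¹ := by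
        rw [div_mul_eq_mul_div, div_mul_eq_mul_div, le_div_iff₀ hκ, ← div_eq_mul_inv,
          le_div_iff₀ hμ0]
        linarith
      calc |g x * N x ^ (-s) - g y * N y ^ (-s)| ≤ 2 * A1 * μ ^ (-(n : ℝ)) * 1 := by
            rw [mul_one]; exact h3
        _ ≤ 2 * A1 * μ ^ (-(n : ℝ)) * (2 / κ * ‖x - y‖ * μ⁻¹) :=
            mul_le_mul_of_nonneg_left h4 (by positivity)
        _ = 4 * A1 / κ * ‖x - y‖ * μ ^ (-((n : ℝ) + 1)) := by
            rw [hpow]; field_simp; ring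
        _ ≤ C * ‖x - y‖ * μ ^ (-((n : ℝ) + 1)) := by
            refine mul_le_mul_of_nonneg_right (mul_le_mul_of_nonneg_right ?_ hd)
              (Real.rpow_nonneg hμ0.le _)
            rw [hC]
            have : 0 ≤ (|L| + 2 * n) * (2 / κ) * A2 := by positivity
            linarith
    · -- close: all coordinates of both points are `≥ c`
      have hclose : ‖x - y‖ < κ / 2 * μ := not_le.mp hfar
      set c : ℝ := κ / 2 * μ with hc
      have hc0 : 0 < c := mul_pos (half_pos hκ) hμ0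
      have hxc : ∀ v, c ≤ ν v x := fun v => le_trans (by rw [hc]; nlinarith) (hxv v)
      have hyc : ∀ v, c ≤ ν v y := by
        intro v
        have h1 := hνsub v x y
        have h2 := (abs_le.mp h1).2
        have h3 := hxv v
        rw [hc]
        nlinarith
      have hκ2 : κ / 2 ≤ 1 := by linarith
      have hNx := prod_rpow_neg_le ν m (half_pos hκ) hκ2 hμ1 hs1 hs2 hxc
      have hNy := prod_rpow_neg_le ν m (half_pos hκ) hκ2 hμ1 hs1 hs2 hyc
      have hNx0 : 0 < N x := lt_of_lt_of_le (pow_pos hc0 _) (pow_le_prod_pow ν m hc0 hxc)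
      have hNy0 : 0 < N y := lt_of_lt_of_le (pow_pos hc0 _) (pow_le_prod_pow ν m hc0 hyc)
      have hlog := abs_log_prod_sub_le ν m hνsub hc0 hxc hyc
      -- first term
      have ht1 : |g x - g y| * N x ^ (-s) ≤ |L| * ‖x - y‖ / c * (A2 * μ ^ (-(n : ℝ))) := by
        refine mul_le_mul ?_ hNx (Real.rpow_nonneg hNx0.le _) (by positivity)
        refine (hgl c x y hc0 hxc hyc).trans ?_
        exact div_le_div_of_nonneg_right
          (mul_le_mul_of_nonneg_right (le_abs_self L) hd) hc0.le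
      -- second term
      have ht2 : |N x ^ (-s) - N y ^ (-s)| ≤
          2 * ((n : ℝ) * ‖x - y‖ / c) * (A2 * μ ^ (-(n : ℝ))) := by
        rw [Real.rpow_def_of_pos hNx0, Real.rpow_def_of_pos hNy0]
        refine (abs_exp_sub_exp_le _ _).trans ?_
        have h1 : |Real.log (N x) * -s - Real.log (N y) * -s| ≤ 2 * ((n : ℝ) * ‖x - y‖ / c) := by
          have : Real.log (N x) * -s - Real.log (N y) * -s =
              -s * (Real.log (N x) - Real.log (N y)) := by ring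
          rw [this, abs_mul, abs_neg, abs_of_nonneg (by linarith : (0 : ℝ) ≤ s)]
          exact mul_le_mul hs2 hlog (abs_nonneg _) (by norm_num)
        have h2 : max (Real.exp (Real.log (N x) * -s)) (Real.exp (Real.log (N y) * -s)) ≤
            A2 * μ ^ (-(n : ℝ)) := by
          rw [← Real.rpow_def_of_pos hNx0, ← Real.rpow_def_of_pos hNy0]
          exact max_le hNx hNy
        exact mul_le_mul h1 h2 (le_max_of_le_left (Real.exp_pos _).le) (by positivity)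
      have hsplit : g x * N x ^ (-s) - g y * N y ^ (-s) =
          (g x - g y) * N x ^ (-s) + g y * (N x ^ (-s) - N y ^ (-s)) := by ring
      rw [hsplit]
      refine (abs_add_le _ _).trans ?_
      rw [abs_mul, abs_mul, abs_of_nonneg (Real.rpow_nonneg hNx0.le _), abs_of_nonneg (hg0 y)]
      have ht3 : g y * |N x ^ (-s) - N y ^ (-s)| ≤ |N x ^ (-s) - N y ^ (-s)| :=
        mul_le_of_le_one_left (abs_nonneg _) (hg1 y)
      calc |g x - g y| * N x ^ (-s) + g y * |N x ^ (-s) - N y ^ (-s)|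
          ≤ |L| * ‖x - y‖ / c * (A2 * μ ^ (-(n : ℝ))) +
            2 * ((n : ℝ) * ‖x - y‖ / c) * (A2 * μ ^ (-(n : ℝ))) := by linarith
        _ = (|L| + 2 * n) * (2 / κ) * A2 * ‖x - y‖ * μ ^ (-((n : ℝ) + 1)) := by
            rw [hpow, hc]; field_simp
        _ ≤ C * ‖x - y‖ * μ ^ (-((n : ℝ) + 1)) := by
            refine mul_le_mul_of_nonneg_right (mul_le_mul_of_nonneg_right ?_ hd)
              (Real.rpow_nonneg hμ0.le _)
            rw [hC]
            have : 0 ≤ 4 * A1 / κ := by positivity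
            linarith
  intro x y hx hy
  by_cases hgx : g x = 0
  · by_cases hgy : g y = 0
    · rw [hgx, hgy, zero_mul, zero_mul, sub_zero, abs_zero]
      exact mul_nonneg (mul_nonneg hC0 (norm_nonneg _))
        (Real.rpow_nonneg (le_min (norm_nonneg _) (norm_nonneg _)) _)
    · have := aux y x hy hx hgy
      rwa [abs_sub_comm, norm_sub_rev, min_comm] at this
  · exact aux x y hx hy hgx

end Abstract

end Fermat.Agent.S14.H12
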