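import Mathlib
import Fermat.Agent.S14.H12.Decay

/-!
# A smooth fundamental-domain weight on the mixed space of a number field

Given a function `h` on the log space `logSpace K`, `weight h x = h (logMap x) / torsionOrder K`
(and `0` when the norm of `x` vanishes).  If `h` is a partition of unity for the unit lattice,
then `∑ u : (𝓞 K)ˣ, weight h (u • x) = 1`.
-/

namespace Fermat.Agent.S14.H12

open NumberField NumberField.InfinitePlace NumberField.mixedEmbedding NumberField.Units
  NumberField.Units.dirichletUnitTheorem Module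

variable {K : Type*} [Field K] [NumberField K]

open scoped Classical

/-- The weight on the mixed space attached to a function on the log space. -/
noncomputable def weight (h : logSpace K → ℝ) (x : mixedSpace K) : ℝ :=
  if mixedEmbedding.norm x = 0 then 0 else h (logMap x) / torsionOrder K

theorem weight_of_norm_ne_zero (h : logSpace K → ℝ) {x : mixedSpace K}
    (hx : mixedEmbedding.norm x ≠ 0) : weight h x = h (logMap x) / torsionOrder K :=
  if_neg hx

theorem weight_of_norm_eq_zero (h : logSpace K → ℝ) {x : mixedSpace K}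
    (hx : mixedEmbedding.norm x = 0) : weight h x = 0 :=
  if_pos hx

theorem one_le_torsionOrder_real : (1 : ℝ) ≤ (torsionOrder K : ℝ) := by
  exact_mod_cast torsionOrder_pos K

theorem weight_nonneg {h : logSpace K → ℝ} (h0 : ∀ y, 0 ≤ h y) (x : mixedSpace K) :
    0 ≤ weight h x := by
  unfold weight
  split_ifs
  · exact le_rfl
  · exact div_nonneg (h0 _) (Nat.cast_nonneg _)

theorem weight_le_one {h : logSpace K → ℝ} (h1 : ∀ y, h y ≤ 1)
    (x : mixedSpace K) : weight h x ≤ 1 := by
  unfold weight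
  split_ifs
  · exact zero_le_one
  · have hτ := one_le_torsionOrder_real (K := K)
    rw [div_le_one (by linarith)]
    exact (h1 _).trans hτ

theorem normAtPlace_le_norm (v : InfinitePlace K) (x : mixedSpace K) :
    normAtPlace v x ≤ ‖x‖ := by
  classical
  rw [norm_eq_sup'_normAtPlace]
  exact Finset.le_sup' (fun w => normAtPlace w x) (Finset.mem_univ v)

theorem exists_normAtPlace_eq_norm (x : mixedSpace K) :
    ∃ v : InfinitePlace K, normAtPlace v x = ‖x‖ := by
  classical
  obtain ⟨v, -, hv⟩ := Finset.exists_mem_eq_sup' Finset.univ_nonempty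
    (fun w : InfinitePlace K => normAtPlace w x)
  exact ⟨v, by rw [norm_eq_sup'_normAtPlace, hv]⟩

theorem abs_normAtPlace_sub_le (v : InfinitePlace K) (x y : mixedSpace K) :
    |normAtPlace v x - normAtPlace v y| ≤ ‖x - y‖ := by
  rw [abs_le]
  constructor
  · have h1 := normAtPlace_add_le v (y - x) x
    rw [sub_add_cancel] at h1
    have h2 := normAtPlace_le_norm v (y - x)
    rw [norm_sub_rev] at h2
    linarith
  · have h1 := normAtPlace_add_le v (x - y) y
    rw [sub_add_cancel] at h1
    have h2 := normAtPlace_le_norm v (x - y)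
    linarith

theorem log_norm_eq_sum {x : mixedSpace K} (hx : mixedEmbedding.norm x ≠ 0) :
    Real.log (mixedEmbedding.norm x) =
      ∑ v : InfinitePlace K, (mult v : ℝ) * Real.log (normAtPlace v x) := by
  rw [mixedEmbedding.norm_apply, Real.log_prod
    (fun v _ => pow_ne_zero _ (mixedEmbedding.norm_ne_zero_iff.mp hx v))]
  exact Finset.sum_congr rfl fun v _ => Real.log_pow _ _

theorem finrank_pos_real : (0 : ℝ) < (finrank ℚ K : ℝ) := by
  exact_mod_cast (finrank_pos : 0 < finrank ℚ K)

/-- The deviations `d v = log (normAtPlace v x) - log (norm x) / n` have weighted sum zero. -/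
theorem sum_mult_mul_dev {x : mixedSpace K} (hx : mixedEmbedding.norm x ≠ 0) :
    ∑ v : InfinitePlace K, (mult v : ℝ) * (Real.log (normAtPlace v x) -
      Real.log (mixedEmbedding.norm x) * (finrank ℚ K : ℝ)⁻¹) = 0 := by
  simp_rw [mul_sub]
  rw [Finset.sum_sub_distrib, ← log_norm_eq_sum hx, ← Finset.sum_mul, ← Nat.cast_sum,
    sum_mult_eq]
  have := finrank_pos_real (K := K)
  field_simp
  ring

/-- **Support of the weight**: all coordinates are comparable with the sup norm. -/
theorem weight_support {h : logSpace K → ℝ} {R : ℝ} (hR : ∀ y, h y ≠ 0 → ‖y‖ ≤ R)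
    {x : mixedSpace K} (hx : weight h x ≠ 0) (v : InfinitePlace K) :
    Real.exp (-(2 * (finrank ℚ K : ℝ) * R)) * ‖x‖ ≤ normAtPlace v x := by
  classical
  have hN : mixedEmbedding.norm x ≠ 0 := fun h0 => hx (weight_of_norm_eq_zero h h0)
  have hh : h (logMap x) ≠ 0 := by
    intro h0
    apply hx
    rw [weight_of_norm_ne_zero h hN, h0, zero_div]
  have hlog : ‖logMap x‖ ≤ R := hR _ hh
  have hR0 : 0 ≤ R := (norm_nonneg _).trans hlog
  set n : ℝ := (finrank ℚ K : ℝ) with hn
  have hn1 : (1 : ℝ) ≤ n := by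
    rw [hn]; exact_mod_cast (finrank_pos : 0 < finrank ℚ K)
  set d : InfinitePlace K → ℝ := fun v => Real.log (normAtPlace v x) -
    Real.log (mixedEmbedding.norm x) * (finrank ℚ K : ℝ)⁻¹ with hd
  have hsum : ∑ v : InfinitePlace K, (mult v : ℝ) * d v = 0 := sum_mult_mul_dev hN
  -- bound away from `w₀`
  have h1 : ∀ v : InfinitePlace K, v ≠ w₀ → |(mult v : ℝ) * d v| ≤ R := by
    intro v hv
    have := norm_le_pi_norm (logMap x) ⟨v, hv⟩
    rw [logMap_apply, Real.norm_eq_abs] at this
    exact this.trans hlog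
  -- bound at `w₀`
  have hcard : ((Finset.univ.erase (w₀ : InfinitePlace K)).card : ℝ) ≤ n := by
    have h2 : (Finset.univ.erase (w₀ : InfinitePlace K)).card ≤ finrank ℚ K := by
      calc (Finset.univ.erase (w₀ : InfinitePlace K)).card
          ≤ (Finset.univ : Finset (InfinitePlace K)).card := Finset.card_erase_le
        _ = ∑ _v : InfinitePlace K, 1 := by simp
        _ ≤ ∑ v : InfinitePlace K, mult v := Finset.sum_le_sum fun v _ => mult_pos
        _ = finrank ℚ K := sum_mult_eq
    rw [hn]; exact_mod_cast h2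
  have h0 : |(mult (w₀ : InfinitePlace K) : ℝ) * d w₀| ≤ n * R := by
    have h3 : (mult (w₀ : InfinitePlace K) : ℝ) * d w₀ =
        -∑ v ∈ Finset.univ.erase (w₀ : InfinitePlace K), (mult v : ℝ) * d v := by
      rw [← Finset.add_sum_erase _ _ (Finset.mem_univ (w₀ : InfinitePlace K))] at hsum
      linarith
    rw [h3, abs_neg]
    refine (Finset.abs_sum_le_sum_abs _ _).trans ?_
    calc ∑ v ∈ Finset.univ.erase (w₀ : InfinitePlace K), |(mult v : ℝ) * d v|
        ≤ ∑ _v ∈ Finset.univ.erase (w₀ : InfinitePlace K), R :=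
          Finset.sum_le_sum fun v hv => h1 v (Finset.ne_of_mem_erase hv)
      _ = (Finset.univ.erase (w₀ : InfinitePlace K)).card * R := by
          rw [Finset.sum_const, nsmul_eq_mul]
      _ ≤ n * R := mul_le_mul_of_nonneg_right hcard hR0
  have hall : ∀ v : InfinitePlace K, |d v| ≤ n * R := by
    intro v
    have hm : (1 : ℝ) ≤ mult v := one_le_mult
    have h4 : |d v| ≤ |(mult v : ℝ) * d v| := by
      rw [abs_mul, abs_of_nonneg (by linarith : (0 : ℝ) ≤ mult v)]
      exact le_mul_of_one_le_left (abs_nonneg _) hm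
    by_cases hv : v = w₀
    · subst hv; exact h4.trans h0
    · refine h4.trans ((h1 v hv).trans ?_)
      exact le_mul_of_one_le_left hR0 hn1
  obtain ⟨v', hv'⟩ := exists_normAtPlace_eq_norm x
  rw [← hv']
  have hpos : ∀ w : InfinitePlace K, 0 < normAtPlace w x := fun w =>
    lt_of_le_of_ne (normAtPlace_nonneg w x) (Ne.symm (mixedEmbedding.norm_ne_zero_iff.mp hN w))
  have h5 : Real.log (normAtPlace v' x) - 2 * n * R ≤ Real.log (normAtPlace v x) := by
    have ha := abs_le.mp (hall v)
    have hb := abs_le.mp (hall v')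
    have : Real.log (normAtPlace v x) - Real.log (normAtPlace v' x) = d v - d v' := by
      simp only [hd]; ring
    linarith [ha.1, hb.2]
  calc Real.exp (-(2 * n * R)) * normAtPlace v' x
      = Real.exp (Real.log (normAtPlace v' x) - 2 * n * R) := by
        rw [sub_eq_add_neg, Real.exp_add, Real.exp_log (hpos v'), mul_comm]
    _ ≤ Real.exp (Real.log (normAtPlace v x)) := Real.exp_le_exp.mpr h5
    _ = normAtPlace v x := Real.exp_log (hpos v)

/-- **Log-Lipschitz property of the weight.** -/
theorem weight_lipschitz {h : logSpace K → ℝ} {Lh : ℝ} (hLh : 0 ≤ Lh)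
    (hlip : ∀ y y', |h y - h y'| ≤ Lh * ‖y - y'‖) (c : ℝ) (x y : mixedSpace K) (hc : 0 < c)
    (hx : ∀ v, c ≤ normAtPlace v x) (hy : ∀ v, c ≤ normAtPlace v y) :
    |weight h x - weight h y| ≤ 4 * Lh * ‖x - y‖ / c := by
  have hNx : mixedEmbedding.norm x ≠ 0 :=
    mixedEmbedding.norm_ne_zero_iff.mpr fun v => (lt_of_lt_of_le hc (hx v)).ne'
  have hNy : mixedEmbedding.norm y ≠ 0 :=
    mixedEmbedding.norm_ne_zero_iff.mpr fun v => (lt_of_lt_of_le hc (hy v)).ne'
  have hτ := one_le_torsionOrder_real (K := K)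
  rw [weight_of_norm_ne_zero h hNx, weight_of_norm_ne_zero h hNy, ← sub_div, abs_div,
    abs_of_pos (by linarith : (0 : ℝ) < torsionOrder K)]
  have hd : 0 ≤ ‖x - y‖ := norm_nonneg _
  have hn := finrank_pos_real (K := K)
  have hlogN := abs_log_prod_sub_le (fun v x => normAtPlace v x) (fun v : InfinitePlace K => mult v)
    abs_normAtPlace_sub_le hc hx hy
  rw [sum_mult_eq] at hlogN
  have hkey : ‖logMap x - logMap y‖ ≤ 4 * ‖x - y‖ / c := by
    rw [pi_norm_le_iff_of_nonneg (by positivity)]
    intro w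
    rw [Pi.sub_apply, logMap_apply, logMap_apply, Real.norm_eq_abs, ← mul_sub, abs_mul,
      Nat.abs_cast]
    have hm : (mult w.val : ℝ) ≤ 2 := by
      have : mult w.val ≤ 2 := by
        rw [mult]; split_ifs <;> norm_num
      exact_mod_cast this
    have h1 := abs_log_sub_log_le hc (hx w.val) (hy w.val)
    have h2 : |normAtPlace w.val x - normAtPlace w.val y| / c ≤ ‖x - y‖ / c :=
      div_le_div_of_nonneg_right (abs_normAtPlace_sub_le _ _ _) hc.le
    have h3 : |(Real.log (mixedEmbedding.norm x) - Real.log (mixedEmbedding.norm y)) *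
        (finrank ℚ K : ℝ)⁻¹| ≤ ‖x - y‖ / c := by
      rw [abs_mul, abs_of_pos (inv_pos.mpr hn)]
      rw [mixedEmbedding.norm_apply, mixedEmbedding.norm_apply]
      calc _ ≤ ((finrank ℚ K : ℕ) : ℝ) * ‖x - y‖ / c * (finrank ℚ K : ℝ)⁻¹ :=
            mul_le_mul_of_nonneg_right hlogN (inv_pos.mpr hn).le
        _ = ‖x - y‖ / c := by field_simp
    have h4 : |Real.log (normAtPlace w.val x) - Real.log (mixedEmbedding.norm x) *
        (finrank ℚ K : ℝ)⁻¹ - (Real.log (normAtPlace w.val y) -
        Real.log (mixedEmbedding.norm y) * (finrank ℚ K : ℝ)⁻¹)| ≤ 2 * (‖x - y‖ / c) := by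
      have e : Real.log (normAtPlace w.val x) - Real.log (mixedEmbedding.norm x) *
          (finrank ℚ K : ℝ)⁻¹ - (Real.log (normAtPlace w.val y) -
          Real.log (mixedEmbedding.norm y) * (finrank ℚ K : ℝ)⁻¹) =
          (Real.log (normAtPlace w.val x) - Real.log (normAtPlace w.val y)) -
          (Real.log (mixedEmbedding.norm x) - Real.log (mixedEmbedding.norm y)) *
          (finrank ℚ K : ℝ)⁻¹ := by ring
      rw [e]
      refine (abs_sub _ _).trans ?_
      linarith
    calc (mult w.val : ℝ) * |Real.log (normAtPlace w.val x) - Real.log (mixedEmbedding.norm x) *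
          (finrank ℚ K : ℝ)⁻¹ - (Real.log (normAtPlace w.val y) -
          Real.log (mixedEmbedding.norm y) * (finrank ℚ K : ℝ)⁻¹)|
        ≤ 2 * (2 * (‖x - y‖ / c)) := mul_le_mul hm h4 (abs_nonneg _) (by norm_num)
      _ = 4 * ‖x - y‖ / c := by ring
  calc |h (logMap x) - h (logMap y)| / (torsionOrder K : ℝ)
      ≤ |h (logMap x) - h (logMap y)| := div_le_self (abs_nonneg _) hτ
    _ ≤ Lh * ‖logMap x - logMap y‖ := hlip _ _
    _ ≤ Lh * (4 * ‖x - y‖ / c) := mul_le_mul_of_nonneg_left hkey hLh
    _ = 4 * Lh * ‖x - y‖ / c := by ring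

end Fermat.Agent.S14.H12
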