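import Mathlib
import Fermat.Agent.S14.H12.Weight

/-!
# The sum of the weight over a unit orbit is `1`
-/

namespace Fermat.Agent.S14.H12

open NumberField NumberField.InfinitePlace NumberField.mixedEmbedding NumberField.Units
  NumberField.Units.dirichletUnitTheorem Module

variable {K : Type*} [Field K] [NumberField K]

open scoped Classical

theorem exists_unit_logEmbedding_eq (γ : unitLattice K) :
    ∃ u : (𝓞 K)ˣ, logEmbedding K (Additive.ofMul u) = (γ : logSpace K) := by
  obtain ⟨u, -, hu⟩ := γ.2
  exact ⟨Additive.toMul u, hu⟩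

/-- A section of the log embedding over the unit lattice. -/
noncomputable def unitSection (γ : unitLattice K) : (𝓞 K)ˣ :=
  (exists_unit_logEmbedding_eq γ).choose

theorem logEmbedding_unitSection (γ : unitLattice K) :
    logEmbedding K (Additive.ofMul (unitSection γ)) = (γ : logSpace K) :=
  (exists_unit_logEmbedding_eq γ).choose_spec

theorem logEmbedding_mem_unitLattice (u : (𝓞 K)ˣ) :
    logEmbedding K (Additive.ofMul u) ∈ unitLattice K :=
  ⟨Additive.ofMul u, trivial, rfl⟩

theorem logEmbedding_mul (u v : (𝓞 K)ˣ) :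
    logEmbedding K (Additive.ofMul (u * v)) =
      logEmbedding K (Additive.ofMul u) + logEmbedding K (Additive.ofMul v) := by
  rw [ofMul_mul, map_add]

theorem logEmbedding_inv (u : (𝓞 K)ˣ) :
    logEmbedding K (Additive.ofMul u⁻¹) = -logEmbedding K (Additive.ofMul u) := by
  rw [ofMul_inv, map_neg]

/-- The units as a product of the unit lattice and the torsion. -/
noncomputable def unitsProdEquiv : unitLattice K × torsion K ≃ (𝓞 K)ˣ where
  toFun p := unitSection p.1 * (p.2 : (𝓞 K)ˣ)
  invFun u := (⟨logEmbedding K (Additive.ofMul u), logEmbedding_mem_unitLattice u⟩,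
    ⟨(unitSection ⟨logEmbedding K (Additive.ofMul u), logEmbedding_mem_unitLattice u⟩)⁻¹ * u, by
      rw [← logEmbedding_eq_zero_iff, logEmbedding_mul, logEmbedding_inv,
        logEmbedding_unitSection, neg_add_cancel]⟩)
  left_inv p := by
    have h : logEmbedding K (Additive.ofMul (unitSection p.1 * (p.2 : (𝓞 K)ˣ))) = p.1 := by
      rw [logEmbedding_mul, logEmbedding_unitSection, logEmbedding_eq_zero_iff.mpr p.2.2,
        add_zero]
    have h' : (⟨logEmbedding K (Additive.ofMul (unitSection p.1 * (p.2 : (𝓞 K)ˣ))),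
        logEmbedding_mem_unitLattice _⟩ : unitLattice K) = p.1 := Subtype.ext h
    refine Prod.ext h' (Subtype.ext ?_)
    simp only [h', inv_mul_cancel_left]
  right_inv u := by
    simp

theorem logEmbedding_unitsProdEquiv (p : unitLattice K × torsion K) :
    logEmbedding K (Additive.ofMul (unitsProdEquiv p)) = (p.1 : logSpace K) := by
  change logEmbedding K (Additive.ofMul (unitSection p.1 * (p.2 : (𝓞 K)ˣ))) = _
  rw [logEmbedding_mul, logEmbedding_unitSection, logEmbedding_eq_zero_iff.mpr p.2.2, add_zero]

/-- **The weight is a partition of unity along unit orbits.** -/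
theorem hasSum_weight_unit_smul {h : logSpace K → ℝ} (h0 : ∀ y, 0 ≤ h y)
    (hsum : ∀ y, HasSum (fun γ : unitLattice K => h (y + γ)) 1) {x : mixedSpace K}
    (hx : mixedEmbedding.norm x ≠ 0) :
    HasSum (fun u : (𝓞 K)ˣ => weight h (u • x)) 1 := by
  have hτ : (torsionOrder K : ℝ) ≠ 0 := Nat.cast_ne_zero.mpr (torsionOrder_pos K).ne'
  rw [← (unitsProdEquiv (K := K)).hasSum_iff]
  have hfun : (fun u : (𝓞 K)ˣ => weight h (u • x)) ∘ (unitsProdEquiv (K := K)) =
      fun p : unitLattice K × torsion K => h (logMap x + (p.1 : logSpace K)) *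
        ((fun _ : torsion K => ((torsionOrder K : ℝ))⁻¹) p.2) := by
    funext p
    simp only [Function.comp_apply]
    rw [weight_of_norm_ne_zero h (by rwa [norm_unit_smul]), logMap_unit_smul _ hx,
      logEmbedding_unitsProdEquiv, add_comm, div_eq_mul_inv]
  rw [hfun]
  have h2 : HasSum (fun _ : torsion K => ((torsionOrder K : ℝ))⁻¹) 1 := by
    let _ : Fintype (torsion K) := Fintype.ofFinite _
    have := hasSum_fintype (fun _ : torsion K => ((torsionOrder K : ℝ))⁻¹)
    rw [Finset.sum_const, Finset.card_univ, nsmul_eq_mul, ← Nat.card_eq_fintype_card] at this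
    have e : (Nat.card (torsion K) : ℝ) * ((torsionOrder K : ℝ))⁻¹ = 1 := by
      rw [torsionOrder]
      exact mul_inv_cancel₀ (by rw [torsionOrder] at hτ; exact hτ)
    rwa [e] at this
  have h3 := (hsum (logMap x)).mul h2
    ((hsum (logMap x)).summable.mul_of_nonneg h2.summable (fun γ => h0 _)
      (fun _ => inv_nonneg.mpr (Nat.cast_nonneg _)))
  rwa [one_mul] at h3

end Fermat.Agent.S14.H12
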