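import Mathlib
import Fermat.Agent.S14.H12.UnitSum

/-!
# Lattice sums of the weighted inverse norm power and partial zeta functions

For a nonzero ideal `𝔟` of `𝓞 K`, the sum over `α ∈ 𝔟` of `weight h α * |N α| ^ (-s)` equals
`N 𝔟 ^ (-s)` times the partial zeta function of the ideal class inverse to that of `𝔟`.
-/

namespace Fermat.Agent.S14.H12

open NumberField NumberField.InfinitePlace NumberField.mixedEmbedding NumberField.Units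
  NumberField.Units.dirichletUnitTheorem Module

open scoped nonZeroDivisors

variable {K : Type*} [Field K] [NumberField K]

open scoped Classical

/-- The embedding of the ring of integers in the mixed space, as an additive hom. -/
noncomputable def intEmb : 𝓞 K →+ mixedSpace K :=
  ((mixedEmbedding K).comp (algebraMap (𝓞 K) K)).toAddMonoidHom

omit [NumberField K] in
theorem intEmb_apply (α : 𝓞 K) : intEmb α = mixedEmbedding K (α : K) := rfl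

theorem intEmb_injective : Function.Injective (intEmb (K := K)) :=
  (mixedEmbedding_injective K).comp RingOfIntegers.coe_injective

omit [NumberField K] in
theorem intEmb_unit_mul (u : (𝓞 K)ˣ) (α : 𝓞 K) :
    intEmb ((u : 𝓞 K) * α) = u • (intEmb α : mixedSpace K) := by
  rw [unitSMul_smul, intEmb_apply, intEmb_apply, ← map_mul]
  rfl

theorem norm_intEmb (α : 𝓞 K) :
    mixedEmbedding.norm (intEmb α) = ((Ideal.absNorm (Ideal.span {α}) : ℕ) : ℝ) := by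
  rw [intEmb_apply, norm_eq_norm, Ideal.absNorm_span_singleton, Nat.cast_natAbs,
    ← Algebra.coe_norm_int]
  push_cast
  rfl

theorem norm_intEmb_ne_zero {α : 𝓞 K} (hα : α ≠ 0) : mixedEmbedding.norm (intEmb α) ≠ 0 := by
  rw [norm_intEmb, Nat.cast_ne_zero, Ne, Ideal.absNorm_eq_zero_iff, Ideal.span_singleton_eq_bot]
  exact hα

theorem one_le_norm_intEmb {α : 𝓞 K} (hα : α ≠ 0) : 1 ≤ mixedEmbedding.norm (intEmb α) := by
  have h := norm_intEmb_ne_zero hα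
  rw [norm_intEmb] at h ⊢
  exact_mod_cast Nat.one_le_iff_ne_zero.mpr (by exact_mod_cast h)

/-- The weighted inverse norm power. -/
noncomputable def wF (h : logSpace K → ℝ) (s : ℝ) (x : mixedSpace K) : ℝ :=
  weight h x * (mixedEmbedding.norm x) ^ (-s)

theorem wF_nonneg {h : logSpace K → ℝ} (h0 : ∀ y, 0 ≤ h y) (s : ℝ) (x : mixedSpace K) :
    0 ≤ wF h s x :=
  mul_nonneg (weight_nonneg h0 x) (Real.rpow_nonneg (mixedEmbedding.norm_nonneg x) _)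

theorem wF_zero (h : logSpace K → ℝ) (s : ℝ) : wF h s (0 : mixedSpace K) = 0 := by
  rw [wF, weight_of_norm_eq_zero h (map_zero _), zero_mul]

theorem wF_intEmb_le_one {h : logSpace K → ℝ} (h0 : ∀ y, 0 ≤ h y) (h1 : ∀ y, h y ≤ 1) {s : ℝ}
    (hs : 0 ≤ s) (α : 𝓞 K) : |wF h s (intEmb α)| ≤ 1 := by
  rw [abs_of_nonneg (wF_nonneg h0 s _)]
  by_cases hα : α = 0
  · rw [hα, map_zero, wF_zero]; exact zero_le_one
  · have hN := one_le_norm_intEmb hα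
    have h2 : (mixedEmbedding.norm (intEmb α)) ^ (-s) ≤ 1 :=
      Real.rpow_le_one_of_one_le_of_nonpos hN (by linarith)
    calc wF h s (intEmb α) ≤ 1 * 1 :=
          mul_le_mul (weight_le_one h1 _) h2 (Real.rpow_nonneg (by linarith) _) zero_le_one
      _ = 1 := one_mul 1

/-- Generators of `𝔟 * I` when the class of `I` is inverse to that of `𝔟`. -/
theorem exists_gen (𝔟 : (Ideal (𝓞 K))⁰)
    (I : {I : (Ideal (𝓞 K))⁰ // ClassGroup.mk0 I = (ClassGroup.mk0 𝔟)⁻¹}) :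
    ∃ g : 𝓞 K, Ideal.span {g} = (𝔟 : Ideal (𝓞 K)) * (I.1 : Ideal (𝓞 K)) := by
  have h1 : ClassGroup.mk0 (𝔟 * I.1) = 1 := by rw [map_mul, I.2, mul_inv_cancel]
  have h2 : ((𝔟 * I.1 : (Ideal (𝓞 K))⁰) : Ideal (𝓞 K)).IsPrincipal :=
    (ClassGroup.mk0_eq_one_iff (𝔟 * I.1).2).mp h1
  obtain ⟨g, hg⟩ := h2.principal
  exact ⟨g, by rw [Ideal.span]; exact hg.symm⟩

/-- A chosen generator of `𝔟 * I`. -/
noncomputable def gen (𝔟 : (Ideal (𝓞 K))⁰)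
    (I : {I : (Ideal (𝓞 K))⁰ // ClassGroup.mk0 I = (ClassGroup.mk0 𝔟)⁻¹}) : 𝓞 K :=
  (exists_gen 𝔟 I).choose

theorem span_gen (𝔟 : (Ideal (𝓞 K))⁰)
    (I : {I : (Ideal (𝓞 K))⁰ // ClassGroup.mk0 I = (ClassGroup.mk0 𝔟)⁻¹}) :
    Ideal.span {gen 𝔟 I} = (𝔟 : Ideal (𝓞 K)) * (I.1 : Ideal (𝓞 K)) :=
  (exists_gen 𝔟 I).choose_spec

theorem gen_ne_zero (𝔟 : (Ideal (𝓞 K))⁰)
    (I : {I : (Ideal (𝓞 K))⁰ // ClassGroup.mk0 I = (ClassGroup.mk0 𝔟)⁻¹}) : gen 𝔟 I ≠ 0 := by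
  intro h0
  have h1 := span_gen 𝔟 I
  rw [h0, Ideal.span_singleton_eq_bot.mpr rfl] at h1
  exact mul_ne_zero (nonZeroDivisors.coe_ne_zero 𝔟) (nonZeroDivisors.coe_ne_zero I.1) h1.symm

theorem gen_mem (𝔟 : (Ideal (𝓞 K))⁰)
    (I : {I : (Ideal (𝓞 K))⁰ // ClassGroup.mk0 I = (ClassGroup.mk0 𝔟)⁻¹}) :
    gen 𝔟 I ∈ (𝔟 : Ideal (𝓞 K)) := by
  exact Ideal.dvd_span_singleton.mp ⟨_, span_gen 𝔟 I⟩

/-- The parametrisation of the nonzero elements of `𝔟` by ideals in the inverse class and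
units. -/
noncomputable def orbitMap (𝔟 : (Ideal (𝓞 K))⁰)
    (p : {I : (Ideal (𝓞 K))⁰ // ClassGroup.mk0 I = (ClassGroup.mk0 𝔟)⁻¹} × (𝓞 K)ˣ) :
    ↥(𝔟 : Ideal (𝓞 K)) :=
  ⟨(p.2 : 𝓞 K) * gen 𝔟 p.1, Ideal.mul_mem_left _ _ (gen_mem 𝔟 p.1)⟩

theorem orbitMap_injective (𝔟 : (Ideal (𝓞 K))⁰) : Function.Injective (orbitMap 𝔟) := by
  rintro ⟨I, u⟩ ⟨I', u'⟩ h
  have h' : (u : 𝓞 K) * gen 𝔟 I = (u' : 𝓞 K) * gen 𝔟 I' := congrArg Subtype.val h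
  have h1 : Ideal.span {gen 𝔟 I} = Ideal.span {gen 𝔟 I'} := by
    rw [← Ideal.span_singleton_mul_left_unit u.isUnit, ← Ideal.span_singleton_mul_left_unit
      u'.isUnit (gen 𝔟 I'), h']
  rw [span_gen, span_gen] at h1
  have h2 : (I.1 : Ideal (𝓞 K)) = (I'.1 : Ideal (𝓞 K)) :=
    mul_left_cancel₀ (nonZeroDivisors.coe_ne_zero 𝔟) h1
  have h3 : I = I' := Subtype.ext (Subtype.ext h2)
  subst h3
  have h4 : (u : 𝓞 K) = (u' : 𝓞 K) := mul_right_cancel₀ (gen_ne_zero 𝔟 I) h'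
  rw [Units.ext h4]

theorem mem_range_orbitMap (𝔟 : (Ideal (𝓞 K))⁰) (α : ↥(𝔟 : Ideal (𝓞 K))) (hα : α ≠ 0) :
    α ∈ Set.range (orbitMap 𝔟) := by
  have hα' : (α : 𝓞 K) ≠ 0 := fun h => hα (Subtype.ext h)
  obtain ⟨J, hJ⟩ := Ideal.dvd_span_singleton.mpr α.2
  have hJ0 : J ≠ 0 := by
    rintro rfl
    rw [mul_zero, Ideal.zero_eq_bot, Ideal.span_singleton_eq_bot] at hJ
    exact hα' hJ
  have hJmem : J ∈ (Ideal (𝓞 K))⁰ := mem_nonZeroDivisors_of_ne_zero hJ0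
  have hspan : Ideal.span {(α : 𝓞 K)} ∈ (Ideal (𝓞 K))⁰ :=
    mem_nonZeroDivisors_of_ne_zero (by
      rw [Ne, Ideal.zero_eq_bot, Ideal.span_singleton_eq_bot]; exact hα')
  have h1 : ClassGroup.mk0 (⟨Ideal.span {(α : 𝓞 K)}, hspan⟩ : (Ideal (𝓞 K))⁰) = 1 :=
    (ClassGroup.mk0_eq_one_iff hspan).mpr ⟨⟨α, rfl⟩⟩
  have h2 : (⟨Ideal.span {(α : 𝓞 K)}, hspan⟩ : (Ideal (𝓞 K))⁰) = 𝔟 * ⟨J, hJmem⟩ :=
    Subtype.ext hJ
  rw [h2, map_mul] at h1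
  have h3 : ClassGroup.mk0 (⟨J, hJmem⟩ : (Ideal (𝓞 K))⁰) = (ClassGroup.mk0 𝔟)⁻¹ :=
    eq_inv_of_mul_eq_one_right h1
  set I : {I : (Ideal (𝓞 K))⁰ // ClassGroup.mk0 I = (ClassGroup.mk0 𝔟)⁻¹} := ⟨⟨J, hJmem⟩, h3⟩
  have h4 : Ideal.span {gen 𝔟 I} = Ideal.span {(α : 𝓞 K)} := by
    rw [span_gen, hJ]
  obtain ⟨u, hu⟩ := Ideal.span_singleton_eq_span_singleton.mp h4
  refine ⟨(I, u), Subtype.ext ?_⟩
  change (u : 𝓞 K) * gen 𝔟 I = α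
  rw [mul_comm]; exact hu

theorem norm_intEmb_gen (𝔟 : (Ideal (𝓞 K))⁰)
    (I : {I : (Ideal (𝓞 K))⁰ // ClassGroup.mk0 I = (ClassGroup.mk0 𝔟)⁻¹}) :
    mixedEmbedding.norm (intEmb (gen 𝔟 I)) =
      (Ideal.absNorm (𝔟 : Ideal (𝓞 K)) : ℝ) * (Ideal.absNorm (I.1 : Ideal (𝓞 K)) : ℝ) := by
  rw [norm_intEmb, span_gen, map_mul, Nat.cast_mul]

/-- **Lattice sum over an ideal = partial zeta function.** -/
theorem tsum_wF_ideal {h : logSpace K → ℝ} (h0 : ∀ y, 0 ≤ h y)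
    (hsum : ∀ y, HasSum (fun γ : unitLattice K => h (y + γ)) 1) (s : ℝ)
    (𝔟 : (Ideal (𝓞 K))⁰)
    (hS : Summable fun α : ↥(𝔟 : Ideal (𝓞 K)) => wF h s (intEmb (α : 𝓞 K))) :
    (Summable fun I : {I : (Ideal (𝓞 K))⁰ // ClassGroup.mk0 I = (ClassGroup.mk0 𝔟)⁻¹} =>
      (Ideal.absNorm (I.1 : Ideal (𝓞 K)) : ℝ) ^ (-s)) ∧
    ∑' α : ↥(𝔟 : Ideal (𝓞 K)), wF h s (intEmb (α : 𝓞 K)) =
      (Ideal.absNorm (𝔟 : Ideal (𝓞 K)) : ℝ) ^ (-s) *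
        ∑' I : {I : (Ideal (𝓞 K))⁰ // ClassGroup.mk0 I = (ClassGroup.mk0 𝔟)⁻¹},
          (Ideal.absNorm (I.1 : Ideal (𝓞 K)) : ℝ) ^ (-s) := by
  set f : ↥(𝔟 : Ideal (𝓞 K)) → ℝ := fun α => wF h s (intEmb (α : 𝓞 K)) with hf
  have hf0 : ∀ α : ↥(𝔟 : Ideal (𝓞 K)), α ∉ Set.range (orbitMap 𝔟) → f α = 0 := by
    intro α hα
    have : α = 0 := by
      by_contra hne
      exact hα (mem_range_orbitMap 𝔟 α hne)
    rw [this, hf]
    simp only [ZeroMemClass.coe_zero, map_zero, wF_zero]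
  have hS' : Summable (f ∘ orbitMap 𝔟) :=
    ((orbitMap_injective 𝔟).summable_iff hf0).mpr hS
  have htsum : ∑' p, f (orbitMap 𝔟 p) = ∑' α, f α :=
    (orbitMap_injective 𝔟).tsum_eq (by
      intro α hα
      by_contra hne
      exact hα (hf0 α hne))
  -- the inner sums
  have hinner : ∀ I : {I : (Ideal (𝓞 K))⁰ // ClassGroup.mk0 I = (ClassGroup.mk0 𝔟)⁻¹},
      HasSum (fun u : (𝓞 K)ˣ => f (orbitMap 𝔟 (I, u)))
        ((Ideal.absNorm (𝔟 : Ideal (𝓞 K)) : ℝ) ^ (-s) *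
          (Ideal.absNorm (I.1 : Ideal (𝓞 K)) : ℝ) ^ (-s)) := by
    intro I
    have hN := norm_intEmb_ne_zero (gen_ne_zero 𝔟 I)
    have h1 := (hasSum_weight_unit_smul h0 hsum hN).mul_right
      ((mixedEmbedding.norm (intEmb (gen 𝔟 I))) ^ (-s))
    rw [one_mul, norm_intEmb_gen, Real.mul_rpow (Nat.cast_nonneg _) (Nat.cast_nonneg _)] at h1
    refine h1.congr_fun ?_
    intro u
    change wF h s (intEmb ((u : 𝓞 K) * gen 𝔟 I)) = _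
    rw [intEmb_unit_mul, wF, norm_unit_smul, norm_intEmb_gen,
      Real.mul_rpow (Nat.cast_nonneg _) (Nat.cast_nonneg _)]
  have hprod : Summable fun p : {I : (Ideal (𝓞 K))⁰ // ClassGroup.mk0 I = (ClassGroup.mk0 𝔟)⁻¹} ×
      (𝓞 K)ˣ => f (orbitMap 𝔟 p) := hS'
  have h2 := hprod.prod
  have h3 : (fun I : {I : (Ideal (𝓞 K))⁰ // ClassGroup.mk0 I = (ClassGroup.mk0 𝔟)⁻¹} =>
      ∑' u : (𝓞 K)ˣ, f (orbitMap 𝔟 (I, u))) = fun I =>
      (Ideal.absNorm (𝔟 : Ideal (𝓞 K)) : ℝ) ^ (-s) *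
          (Ideal.absNorm (I.1 : Ideal (𝓞 K)) : ℝ) ^ (-s) :=
    funext fun I => (hinner I).tsum_eq
  rw [h3] at h2
  have hb : (Ideal.absNorm (𝔟 : Ideal (𝓞 K)) : ℝ) ^ (-s) ≠ 0 := by
    have : (0 : ℝ) < (Ideal.absNorm (𝔟 : Ideal (𝓞 K)) : ℝ) := by
      exact_mod_cast Nat.pos_of_ne_zero
        (Ideal.absNorm_ne_zero_iff_mem_nonZeroDivisors.mpr 𝔟.2)
    exact (Real.rpow_pos_of_pos this _).ne'
  refine ⟨(summable_mul_left_iff hb).mp h2, ?_⟩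
  rw [← htsum, hprod.tsum_prod, h3, tsum_mul_left]

end Fermat.Agent.S14.H12
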