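import Mathlib

/-!
# Comparing a sum over an additive group with the sum over a finite-index subgroup

`exists_bound_tsum_coset`: if `F` decays in a Lipschitz way, the sum of `F` over (the image of)
an additive group `A` differs from `index * (sum over a finite index subgroup A')` by a bounded
amount, the bound depending only on the decay constants.
-/

namespace Fermat.Agent.S14.H12

open Filter Topology

section Coset

variable {A E : Type*} [AddCommGroup A] [NormedAddCommGroup E]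

/-- Finiteness of the set of group elements whose image has bounded norm, from summability of
`‖ι x‖ ^ (-a)`. -/
theorem finite_norm_lt_of_summable (ι : A →+ E) (hι : Function.Injective ι)
    (a : ℝ) (ha : 0 < a) (hsum : Summable fun x : A => ‖ι x‖ ^ (-a)) (R : ℝ) :
    {x : A | ‖ι x‖ < R}.Finite := by
  by_cases hR : 0 < R
  · have hε : 0 < R ^ (-a) := Real.rpow_pos_of_pos hR _
    have h1 := hsum.tendsto_cofinite_zero.eventually (gt_mem_nhds hε)
    rw [Filter.eventually_cofinite] at h1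
    refine (h1.union (Set.finite_singleton (0 : A))).subset ?_
    intro x hx
    simp only [Set.mem_ofPred_eq] at hx
    by_cases hx0 : x = 0
    · right; simpa using hx0
    · left
      simp only [Set.mem_ofPred_eq, not_lt]
      have hpos : 0 < ‖ι x‖ := by
        rw [norm_pos_iff]
        intro h0
        exact hx0 (hι (by rw [h0, map_zero]))
      exact Real.rpow_le_rpow_of_nonpos hpos hx.le (by linarith)
  · convert Set.finite_empty
    ext x
    simp only [Set.mem_ofPred_eq, Set.mem_empty_iff_false, iff_false, not_lt]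
    exact le_trans (not_lt.mp hR) (norm_nonneg _)

/-- The shift estimate for one coset representative. -/
theorem exists_bound_tsum_shift (ι : A →+ E) (hι : Function.Injective ι) (A' : AddSubgroup A)
    (a : ℝ) (ha : 0 < a) (hsum : Summable fun x : A => ‖ι x‖ ^ (-a)) (C B : ℝ) (r : A) :
    ∃ K : ℝ, ∀ F : E → ℝ,
      (∀ x y : E, 1 ≤ ‖x‖ → 1 ≤ ‖y‖ → |F x - F y| ≤ C * ‖x - y‖ * (min ‖x‖ ‖y‖) ^ (-a)) →
      (∀ x : A, |F (ι x)| ≤ B) →
      Summable (fun y : A' => |F (ι (r + y)) - F (ι y)|) ∧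
        ∑' y : A', |F (ι (r + y)) - F (ι y)| ≤ K := by
  set ρ : ℝ := ‖ι r‖ with hρ
  set R : ℝ := 2 * ρ + 2 with hR
  have hρ0 : 0 ≤ ρ := norm_nonneg _
  have hsum' : Summable fun y : A' => ‖ι (y : A)‖ ^ (-a) :=
    hsum.comp_injective Subtype.val_injective
  have hfin : {y : A' | ‖ι (y : A)‖ < R}.Finite := by
    have := finite_norm_lt_of_summable ι hι a ha hsum R
    exact this.preimage (Subtype.val_injective.injOn)
  classical
  set g : A' → ℝ := fun y => (if ‖ι (y : A)‖ < R then 2 * |B| else 0) +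
    |C| * ρ * (2 : ℝ) ^ a * ‖ι (y : A)‖ ^ (-a) with hg
  have hg1 : Summable fun y : A' => (if ‖ι (y : A)‖ < R then 2 * |B| else 0) := by
    apply summable_of_hasFiniteSupport
    refine hfin.subset ?_
    intro y hy
    simp only [Function.mem_support, ne_eq, ite_eq_right_iff, not_forall] at hy
    exact hy.1
  have hgs : Summable g := hg1.add (hsum'.mul_left _)
  refine ⟨∑' y, g y, fun F hF hB => ?_⟩
  have hle : ∀ y : A', |F (ι (r + y)) - F (ι y)| ≤ g y := by
    intro y
    simp only [hg]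
    by_cases hy : ‖ι (y : A)‖ < R
    · rw [if_pos hy]
      have h1 : |F (ι (r + y)) - F (ι y)| ≤ |F (ι (r + y))| + |F (ι y)| := abs_sub _ _
      have h2 := hB (r + y)
      have h3 := hB y
      have h4 : B ≤ |B| := le_abs_self B
      have h5 : 0 ≤ |C| * ρ * (2 : ℝ) ^ a * ‖ι (y : A)‖ ^ (-a) := by positivity
      linarith
    · rw [if_neg hy, zero_add]
      have hy' : R ≤ ‖ι (y : A)‖ := not_lt.mp hy
      have hy1 : (1 : ℝ) ≤ ‖ι (y : A)‖ := by linarith
      have hxy : ι (r + y) = ι r + ι (y : A) := map_add _ _ _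
      have hx1 : ‖ι (y : A)‖ / 2 + 1 ≤ ‖ι (r + y)‖ := by
        have h := norm_sub_norm_le (ι (y : A)) (-(ι r))
        have h' : ‖ι (y : A) - -ι r‖ = ‖ι (r + y)‖ := by
          rw [hxy, sub_neg_eq_add, add_comm]
        rw [h', norm_neg] at h
        linarith
      have hx1' : (1 : ℝ) ≤ ‖ι (r + y)‖ := by linarith [norm_nonneg (ι (y : A))]
      have hmin : ‖ι (y : A)‖ / 2 ≤ min ‖ι (r + y)‖ ‖ι (y : A)‖ := by
        apply le_min <;> linarith [norm_nonneg (ι (y : A))]
      have hhalf : 0 < ‖ι (y : A)‖ / 2 := by linarith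
      have hpow : (min ‖ι (r + y)‖ ‖ι (y : A)‖) ^ (-a) ≤ (2 : ℝ) ^ a * ‖ι (y : A)‖ ^ (-a) := by
        calc (min ‖ι (r + y)‖ ‖ι (y : A)‖) ^ (-a) ≤ (‖ι (y : A)‖ / 2) ^ (-a) :=
              Real.rpow_le_rpow_of_nonpos hhalf hmin (by linarith)
          _ = (2 : ℝ) ^ a * ‖ι (y : A)‖ ^ (-a) := by
              rw [Real.div_rpow (norm_nonneg _) (by norm_num), Real.rpow_neg (by norm_num : (0:ℝ) ≤ 2),
                div_eq_mul_inv, inv_inv, mul_comm]
      have hdiff : ‖ι (r + y) - ι (y : A)‖ = ρ := by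
        rw [hxy, add_sub_cancel_right]
      have h1 := hF (ι (r + y)) (ι y) hx1' hy1
      rw [hdiff] at h1
      have hminpos : 0 ≤ (min ‖ι (r + y)‖ ‖ι (y : A)‖) ^ (-a) :=
        Real.rpow_nonneg (le_min (norm_nonneg _) (norm_nonneg _)) _
      calc |F (ι (r + y)) - F (ι y)| ≤ C * ρ * (min ‖ι (r + y)‖ ‖ι (y : A)‖) ^ (-a) := h1
        _ ≤ |C| * ρ * (min ‖ι (r + y)‖ ‖ι (y : A)‖) ^ (-a) := by
            gcongr
            exact le_abs_self C
        _ ≤ |C| * ρ * ((2 : ℝ) ^ a * ‖ι (y : A)‖ ^ (-a)) := by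
            gcongr
        _ = |C| * ρ * (2 : ℝ) ^ a * ‖ι (y : A)‖ ^ (-a) := by ring
  have hs : Summable (fun y : A' => |F (ι (r + y)) - F (ι y)|) :=
    Summable.of_nonneg_of_le (fun _ => abs_nonneg _) hle hgs
  exact ⟨hs, hs.tsum_le_tsum hle hgs⟩

/-- The bijection `(A ⧸ A') × A' ≃ A`, `(q, y) ↦ Quotient.out q + y`. -/
noncomputable def cosetProdEquiv (A' : AddSubgroup A) : (A ⧸ A') × A' ≃ A where
  toFun p := Quotient.out p.1 + (p.2 : A)
  invFun x := ((x : A ⧸ A'), ⟨-Quotient.out (x : A ⧸ A') + x, by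
    rw [← QuotientAddGroup.eq]
    exact QuotientAddGroup.out_eq' _⟩)
  left_inv p := by
    have h : ((Quotient.out p.1 + (p.2 : A) : A) : A ⧸ A') = p.1 := by
      rw [QuotientAddGroup.mk_add_of_mem _ p.2.2]
      exact QuotientAddGroup.out_eq' _
    refine Prod.ext h (Subtype.ext ?_)
    simp only [h, neg_add_cancel_left]
  right_inv x := by
    simp

/-- **Coset comparison.** -/
theorem exists_bound_tsum_coset (ι : A →+ E) (hι : Function.Injective ι) (A' : AddSubgroup A)
    [A'.FiniteIndex] (a : ℝ) (ha : 0 < a) (hsum : Summable fun x : A => ‖ι x‖ ^ (-a))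
    (C B : ℝ) :
    ∃ K : ℝ, ∀ F : E → ℝ, (Summable fun x : A => F (ι x)) →
      (∀ x y : E, 1 ≤ ‖x‖ → 1 ≤ ‖y‖ → |F x - F y| ≤ C * ‖x - y‖ * (min ‖x‖ ‖y‖) ^ (-a)) →
      (∀ x : A, |F (ι x)| ≤ B) →
      |∑' x : A, F (ι x) - A'.index * ∑' y : A', F (ι y)| ≤ K := by
  classical
  have : Finite (A ⧸ A') := AddSubgroup.finite_quotient_of_finiteIndex
  let _ : Fintype (A ⧸ A') := Fintype.ofFinite _
  choose Kr hKr using fun r : A => exists_bound_tsum_shift ι hι A' a ha hsum C B r
  refine ⟨∑ q : A ⧸ A', Kr (Quotient.out q), fun F hFs hF hB => ?_⟩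
  -- decomposition of the sum over `A`
  let e : (A ⧸ A') × A' ≃ A := cosetProdEquiv A'
  have hsP : Summable fun p : (A ⧸ A') × A' => F (ι (Quotient.out p.1 + (p.2 : A))) :=
    (e.summable_iff (f := fun x : A => F (ι x))).mpr hFs
  have h1 : ∑' x : A, F (ι x) = ∑ q : A ⧸ A', ∑' y : A', F (ι (Quotient.out q + (y : A))) := by
    rw [← e.tsum_eq (fun x : A => F (ι x))]
    change ∑' p : (A ⧸ A') × A', F (ι (Quotient.out p.1 + (p.2 : A))) = _
    rw [hsP.tsum_prod, tsum_fintype]
  have hs0 : Summable fun y : A' => F (ι (y : A)) := hFs.comp_injective Subtype.val_injective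
  have hcard : (A'.index : ℝ) = (Fintype.card (A ⧸ A') : ℝ) := by
    rw [AddSubgroup.index_eq_card, Nat.card_eq_fintype_card]
  have h2 : (A'.index : ℝ) * ∑' y : A', F (ι y) = ∑ _q : A ⧸ A', ∑' y : A', F (ι (y : A)) := by
    rw [Finset.sum_const, Finset.card_univ, nsmul_eq_mul, hcard]
  rw [h1, h2, ← Finset.sum_sub_distrib]
  refine (Finset.abs_sum_le_sum_abs _ _).trans (Finset.sum_le_sum fun q _ => ?_)
  obtain ⟨hsq, hbq⟩ := hKr (Quotient.out q) F hF hB
  have hsq' : Summable fun y : A' => F (ι (Quotient.out q + (y : A))) := hsP.prod_factor q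
  rw [← hsq'.tsum_sub hs0]
  have hsd : Summable fun y : A' => F (ι (Quotient.out q + (y : A))) - F (ι (y : A)) :=
    hsq'.sub hs0
  calc |∑' y : A', (F (ι (Quotient.out q + (y : A))) - F (ι (y : A)))|
      ≤ ∑' y : A', |F (ι (Quotient.out q + (y : A))) - F (ι (y : A))| := by
        have := norm_tsum_le_tsum_norm (f := fun y : A' =>
          F (ι (Quotient.out q + (y : A))) - F (ι (y : A))) (by simpa [Real.norm_eq_abs] using hsq)
        simpa [Real.norm_eq_abs] using this
    _ ≤ Kr (Quotient.out q) := hbq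

end Coset

end Fermat.Agent.S14.H12
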