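import Mathlib
import Fermat.Agent.S14.H12.LatticeSum
import Fermat.Agent.S14.H12.Cutoff
import Fermat.Agent.S14.H12.IdealSum
import Fermat.Agent.S14.H12.Endgame

/-!
# Partial zeta functions of ideal classes differ by a bounded amount near `s = 1`

For a number field `K`, the partial zeta functions
`ζ(s, c) = ∑_{I ∈ c} N(I)^(-s)` of two ideal classes `c, c'` satisfy
`|ζ(s, c) - ζ(s, c')| ≤ C` for `1 < s ≤ 2`.
-/

namespace Fermat.Agent.S14.H12

open NumberField NumberField.InfinitePlace NumberField.mixedEmbedding NumberField.Units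
  NumberField.Units.dirichletUnitTheorem Module

open scoped nonZeroDivisors

variable {K : Type*} [Field K] [NumberField K]

open scoped Classical

omit [NumberField K] in
theorem intEmb_mem_integerLattice (α : 𝓞 K) :
    (intEmb α : mixedSpace K) ∈ mixedEmbedding.integerLattice K := by
  rw [mixedEmbedding.integerLattice, LinearMap.mem_range]
  exact ⟨α, rfl⟩

theorem summable_norm_integerLattice {r : ℝ} (hr : r < -(finrank ℚ K : ℝ)) :
    Summable fun z : mixedEmbedding.integerLattice K => ‖(z : mixedSpace K)‖ ^ r := by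
  have h2 : finrank ℤ (mixedEmbedding.integerLattice K) = finrank ℚ K := by
    rw [ZLattice.rank ℝ, mixedEmbedding.finrank]
  have := ZLattice.summable_norm_rpow (mixedEmbedding.integerLattice K) r (by rw [h2]; exact hr)
  exact this

/-- The map to the integer lattice. -/
noncomputable def intEmbLattice (α : 𝓞 K) : mixedEmbedding.integerLattice K :=
  ⟨intEmb α, intEmb_mem_integerLattice α⟩

theorem intEmbLattice_injective : Function.Injective (intEmbLattice (K := K)) := by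
  intro a b hab
  apply intEmb_injective
  exact congrArg Subtype.val hab

omit [NumberField K] in
theorem coe_intEmbLattice (α : 𝓞 K) :
    ((intEmbLattice α : mixedEmbedding.integerLattice K) : mixedSpace K) = intEmb α := rfl

theorem summable_norm_intEmb_rpow {r : ℝ} (hr : r < -(finrank ℚ K : ℝ)) :
    Summable fun α : 𝓞 K => ‖(intEmb α : mixedSpace K)‖ ^ r := by
  have h1 := summable_norm_integerLattice (K := K) hr
  have h2 := h1.comp_injective intEmbLattice_injective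
  refine h2.congr ?_
  intro α
  simp only [Function.comp_apply, coe_intEmbLattice]

theorem wF_le {h : logSpace K → ℝ} (h1 : ∀ y, h y ≤ 1) {R : ℝ}
    (hR : ∀ y, h y ≠ 0 → ‖y‖ ≤ R) {s : ℝ} (hs : 0 ≤ s) (x : mixedSpace K) :
    wF h s x ≤ ((Real.exp (-(2 * (finrank ℚ K : ℝ) * R))) ^ (finrank ℚ K)) ^ (-s) *
      ‖x‖ ^ (-((finrank ℚ K : ℝ) * s)) := by
  set κ := Real.exp (-(2 * (finrank ℚ K : ℝ) * R)) with hκ
  have hκ0 : 0 < κ := Real.exp_pos _
  have hrhs : 0 ≤ (κ ^ (finrank ℚ K)) ^ (-s) * ‖x‖ ^ (-((finrank ℚ K : ℝ) * s)) :=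
    mul_nonneg (Real.rpow_nonneg (pow_nonneg hκ0.le _) _) (Real.rpow_nonneg (norm_nonneg _) _)
  by_cases hw : weight h x = 0
  · rw [wF, hw, zero_mul]; exact hrhs
  · have hN : mixedEmbedding.norm x ≠ 0 := fun h0' => hw (weight_of_norm_eq_zero h h0')
    have hx0 : x ≠ 0 := fun hx => hN (by rw [hx, map_zero])
    have hxpos : 0 < ‖x‖ := norm_pos_iff.mpr hx0
    have hc : 0 < κ * ‖x‖ := mul_pos hκ0 hxpos
    have hsup : ∀ v, κ * ‖x‖ ≤ normAtPlace v x := fun v => weight_support hR hw v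
    have h2 := pow_le_prod_pow (fun (v : InfinitePlace K) (x : mixedSpace K) => normAtPlace v x)
      (fun v : InfinitePlace K => mult v) hc hsup
    rw [sum_mult_eq, ← mixedEmbedding.norm_apply] at h2
    have h3 : (mixedEmbedding.norm x) ^ (-s) ≤ ((κ * ‖x‖) ^ (finrank ℚ K)) ^ (-s) :=
      Real.rpow_le_rpow_of_nonpos (pow_pos hc _) h2 (by linarith)
    have h4 : ((κ * ‖x‖) ^ (finrank ℚ K)) ^ (-s) =
        (κ ^ (finrank ℚ K)) ^ (-s) * ‖x‖ ^ (-((finrank ℚ K : ℝ) * s)) := by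
      rw [mul_pow, Real.mul_rpow (pow_nonneg hκ0.le _) (pow_nonneg hxpos.le _),
        ← Real.rpow_natCast ‖x‖, ← Real.rpow_mul hxpos.le, mul_neg]
    rw [wF]
    calc weight h x * mixedEmbedding.norm x ^ (-s)
        ≤ 1 * mixedEmbedding.norm x ^ (-s) :=
          mul_le_mul_of_nonneg_right (weight_le_one h1 x)
            (Real.rpow_nonneg (mixedEmbedding.norm_nonneg x) _)
      _ = mixedEmbedding.norm x ^ (-s) := one_mul _
      _ ≤ ((κ * ‖x‖) ^ (finrank ℚ K)) ^ (-s) := h3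
      _ = _ := h4

theorem summable_wF {h : logSpace K → ℝ} (h0 : ∀ y, 0 ≤ h y) (h1 : ∀ y, h y ≤ 1) {R : ℝ}
    (hR : ∀ y, h y ≠ 0 → ‖y‖ ≤ R) {s : ℝ} (hs : 1 < s) :
    Summable fun α : 𝓞 K => wF h s (intEmb α) := by
  have hn := finrank_pos_real (K := K)
  have h2 : Summable fun α : 𝓞 K =>
      ‖(intEmb α : mixedSpace K)‖ ^ (-((finrank ℚ K : ℝ) * s)) :=
    summable_norm_intEmb_rpow (by nlinarith)
  exact Summable.of_nonneg_of_le (fun α => wF_nonneg h0 s _)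
    (fun α => wF_le h1 hR (by linarith) _) (h2.mul_left _)

theorem exists_decay_const {h : logSpace K → ℝ} (h0 : ∀ y, 0 ≤ h y) (h1 : ∀ y, h y ≤ 1) {R : ℝ}
    (hR0 : 0 ≤ R) (hR : ∀ y, h y ≠ 0 → ‖y‖ ≤ R) {Lh : ℝ} (hLh : 0 ≤ Lh)
    (hlip : ∀ y y', |h y - h y'| ≤ Lh * ‖y - y'‖) :
    ∃ C : ℝ, ∀ s : ℝ, 1 ≤ s → s ≤ 2 → ∀ x y : mixedSpace K, 1 ≤ ‖x‖ → 1 ≤ ‖y‖ →
      |wF h s x - wF h s y| ≤ C * ‖x - y‖ * (min ‖x‖ ‖y‖) ^ (-((finrank ℚ K : ℝ) + 1)) := by
  set κ := Real.exp (-(2 * (finrank ℚ K : ℝ) * R)) with hκ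
  have hκ0 : 0 < κ := Real.exp_pos _
  have hκ1 : κ ≤ 1 := by
    rw [hκ, Real.exp_le_one_iff]
    have := finrank_pos_real (K := K)
    nlinarith
  obtain ⟨C, -, hC⟩ := exists_lipschitz_decay
    (fun (v : InfinitePlace K) (x : mixedSpace K) => normAtPlace v x)
    (fun v : InfinitePlace K => mult v) abs_normAtPlace_sub_le κ (4 * Lh) hκ0 hκ1
  refine ⟨C, fun s hs1 hs2 x y hx hy => ?_⟩
  have := (hC (weight h) (weight_nonneg h0) (weight_le_one h1)
    (fun x hx v => weight_support hR hx v)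
    (fun c x y hc hx hy => weight_lipschitz hLh hlip c x y hc hx hy) s hs1 hs2).2 x y hx hy
  rw [sum_mult_eq] at this
  exact this

/-- The partial zeta function of an ideal class (as a real function of a real variable). -/
noncomputable def partialZeta (c : ClassGroup (𝓞 K)) (s : ℝ) : ℝ :=
  ∑' I : {I : (Ideal (𝓞 K))⁰ // ClassGroup.mk0 I = c},
    (Ideal.absNorm (I.1 : Ideal (𝓞 K)) : ℝ) ^ (-s)

theorem partialZeta_nonneg (c : ClassGroup (𝓞 K)) (s : ℝ) : 0 ≤ partialZeta c s :=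
  tsum_nonneg fun _ => Real.rpow_nonneg (Nat.cast_nonneg _) _

variable (K) in
/-- The lattice sum `Z s` is within a bounded distance of `N 𝔟 ^ (1 - s) ζ(s, [𝔟]⁻¹)`. -/
theorem exists_weighted_sum : ∃ (Z : ℝ → ℝ) (Kb : (Ideal (𝓞 K))⁰ → ℝ),
    ∀ (𝔟 : (Ideal (𝓞 K))⁰) (s : ℝ), 1 < s → s ≤ 2 →
      (Summable fun I : {I : (Ideal (𝓞 K))⁰ // ClassGroup.mk0 I = (ClassGroup.mk0 𝔟)⁻¹} =>
        (Ideal.absNorm (I.1 : Ideal (𝓞 K)) : ℝ) ^ (-s)) ∧
      |Z s - (Ideal.absNorm (𝔟 : Ideal (𝓞 K)) : ℝ) *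
        ((Ideal.absNorm (𝔟 : Ideal (𝓞 K)) : ℝ) ^ (-s) *
          partialZeta ((ClassGroup.mk0 𝔟)⁻¹) s)| ≤ Kb 𝔟 := by
  obtain ⟨h, h0, h1, ⟨R, hR⟩, ⟨Lh, hLh, hlip⟩, hsummable, htsum⟩ := exists_cutoff (unitLattice K)
  have hsum : ∀ y, HasSum (fun γ : unitLattice K => h (y + γ)) 1 := fun y => by
    rw [← htsum y]; exact (hsummable y).hasSum
  have hR' : ∀ y, h y ≠ 0 → ‖y‖ ≤ max R 0 := fun y hy => (hR y hy).trans (le_max_left _ _)
  obtain ⟨C, hC⟩ := exists_decay_const h0 h1 (le_max_right R 0) hR' hLh hlip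
  have hn := finrank_pos_real (K := K)
  have hsumA : Summable fun α : 𝓞 K =>
      ‖(intEmb α : mixedSpace K)‖ ^ (-((finrank ℚ K : ℝ) + 1)) :=
    summable_norm_intEmb_rpow (by linarith)
  have hfi : ∀ 𝔟 : (Ideal (𝓞 K))⁰,
      (Submodule.toAddSubgroup (𝔟 : Ideal (𝓞 K))).FiniteIndex := fun 𝔟 => ⟨by
    change Ideal.absNorm (𝔟 : Ideal (𝓞 K)) ≠ 0
    exact Ideal.absNorm_ne_zero_iff_mem_nonZeroDivisors.mpr 𝔟.2⟩
  choose Kb hKb using fun 𝔟 : (Ideal (𝓞 K))⁰ =>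
    @exists_bound_tsum_coset _ _ _ _ (intEmb (K := K)) intEmb_injective
      (Submodule.toAddSubgroup (𝔟 : Ideal (𝓞 K))) (hfi 𝔟) ((finrank ℚ K : ℝ) + 1)
      (by positivity) hsumA C 1
  refine ⟨fun s => ∑' α : 𝓞 K, wF h s (intEmb α), Kb, fun 𝔟 s hs1 hs2 => ?_⟩
  have hS : Summable fun α : 𝓞 K => wF h s (intEmb α) := summable_wF h0 h1 hR' hs1
  have hSb : Summable fun α : ↥(𝔟 : Ideal (𝓞 K)) => wF h s (intEmb (α : 𝓞 K)) :=
    hS.comp_injective Subtype.val_injective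
  obtain ⟨hsumI, hid⟩ := tsum_wF_ideal h0 hsum s 𝔟 hSb
  refine ⟨hsumI, ?_⟩
  have := hKb 𝔟 (wF h s) hS (hC s hs1.le hs2)
    (fun α => wF_intEmb_le_one h0 h1 (by linarith) α)
  rw [partialZeta, ← hid]
  exact this

end Fermat.Agent.S14.H12
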