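import Mathlib
import Fermat.Agent.S14.H12.PartialZeta

/-!
# Boundedness of class group `L`-series near `s = 1`

Main results, for a number field `K`:

* `summable_partialZeta`, `summable_absNorm_rpow`: summability of `N(I)^(-s)` for `s > 1`
  over an ideal class / over all nonzero ideals;
* `exists_bound_partialZeta_sub`: the partial zeta functions of two ideal classes differ by a
  bounded amount on `(1, 2]`;
* `exists_bound_classLSeries`: for a nontrivial character `χ` of the class group,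
  `L(s, χ) = ∑_I χ([I]) N(I)^(-s)` is bounded on `(1, 2]`.
-/

namespace Fermat.Agent.S14.H12

open NumberField Module

open scoped nonZeroDivisors

variable (K : Type*) [Field K] [NumberField K]

/-- Summability of the partial zeta function of an ideal class for `1 < s ≤ 2`. -/
theorem summable_partialZeta_of_le_two (c : ClassGroup (𝓞 K)) {s : ℝ} (hs : 1 < s) (hs2 : s ≤ 2) :
    Summable fun I : {I : (Ideal (𝓞 K))⁰ // ClassGroup.mk0 I = c} =>
      (Ideal.absNorm (I.1 : Ideal (𝓞 K)) : ℝ) ^ (-s) := by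
  obtain ⟨Z, Kb, hZ⟩ := exists_weighted_sum K
  obtain ⟨𝔟, h𝔟⟩ := ClassGroup.mk0_surjective c⁻¹
  have h := (hZ 𝔟 s hs hs2).1
  rw [h𝔟, inv_inv] at h
  exact h

/-- Summability of the partial zeta function of an ideal class for `1 < s`. -/
theorem summable_partialZeta (c : ClassGroup (𝓞 K)) {s : ℝ} (hs : 1 < s) :
    Summable fun I : {I : (Ideal (𝓞 K))⁰ // ClassGroup.mk0 I = c} =>
      (Ideal.absNorm (I.1 : Ideal (𝓞 K)) : ℝ) ^ (-s) := by
  rcases le_or_gt s 2 with hs2 | hs2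
  · exact summable_partialZeta_of_le_two K c hs hs2
  · have h2 := summable_partialZeta_of_le_two K c (by norm_num : (1 : ℝ) < 2) le_rfl
    refine Summable.of_nonneg_of_le (fun I => Real.rpow_nonneg (Nat.cast_nonneg _) _) (fun I => ?_) h2
    have h1 : (1 : ℝ) ≤ (Ideal.absNorm (I.1 : Ideal (𝓞 K)) : ℝ) := by
      exact_mod_cast Nat.one_le_iff_ne_zero.mpr
        (Ideal.absNorm_ne_zero_iff_mem_nonZeroDivisors.mpr I.1.2)
    exact Real.rpow_le_rpow_of_exponent_le h1 (by linarith)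

/-- Summability of `N(I)^(-s)` over all nonzero ideals for `1 < s`. -/
theorem summable_absNorm_rpow {s : ℝ} (hs : 1 < s) :
    Summable fun I : (Ideal (𝓞 K))⁰ => (Ideal.absNorm (I : Ideal (𝓞 K)) : ℝ) ^ (-s) := by
  rw [← (Equiv.sigmaFiberEquiv (ClassGroup.mk0 : (Ideal (𝓞 K))⁰ → ClassGroup (𝓞 K))).summable_iff]
  refine (summable_sigma_of_nonneg (fun p => ?_)).mpr ⟨fun c => ?_, Summable.of_finite⟩
  · exact Real.rpow_nonneg (Nat.cast_nonneg _) _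
  · exact summable_partialZeta K c hs

/-- **Partial zeta functions of two ideal classes differ by a bounded amount on `(1, 2]`**,
in terms of `partialZeta`. -/
theorem exists_bound_partialZeta :
    ∃ C : ℝ, ∀ s : ℝ, 1 < s → s ≤ 2 → ∀ c c' : ClassGroup (𝓞 K),
      |partialZeta c s - partialZeta c' s| ≤ C := by
  classical
  obtain ⟨Z, Kb, hZ⟩ := exists_weighted_sum K
  choose 𝔟 h𝔟 using fun c : ClassGroup (𝓞 K) => ClassGroup.mk0_surjective c⁻¹
  have h𝔟' : ∀ c, (ClassGroup.mk0 (𝔟 c))⁻¹ = c := fun c => by rw [h𝔟 c, inv_inv]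
  have hN1 : ∀ c, (1 : ℝ) ≤ (Ideal.absNorm ((𝔟 c : (Ideal (𝓞 K))⁰) : Ideal (𝓞 K)) : ℝ) :=
    fun c => by
      exact_mod_cast Nat.one_le_iff_ne_zero.mpr
        (Ideal.absNorm_ne_zero_iff_mem_nonZeroDivisors.mpr (𝔟 c).2)
  -- the ideal `(2)`
  have h2ne : Ideal.span {((2 : ℕ) : 𝓞 K)} ∈ (Ideal (𝓞 K))⁰ :=
    mem_nonZeroDivisors_of_ne_zero (by
      rw [Ne, Ideal.zero_eq_bot, Ideal.span_singleton_eq_bot]
      exact_mod_cast (two_ne_zero : (2 : 𝓞 K) ≠ 0))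
  set 𝔟₂ : (Ideal (𝓞 K))⁰ := ⟨Ideal.span {((2 : ℕ) : 𝓞 K)}, h2ne⟩ with h𝔟₂
  have hcl2 : (ClassGroup.mk0 𝔟₂)⁻¹ = 1 := by
    rw [inv_eq_one]
    exact (ClassGroup.mk0_eq_one_iff h2ne).mpr ⟨⟨_, rfl⟩⟩
  have hcl1 : (ClassGroup.mk0 (1 : (Ideal (𝓞 K))⁰))⁻¹ = 1 := by rw [map_one, inv_one]
  have hN2 : (2 : ℝ) ≤ (Ideal.absNorm (𝔟₂ : Ideal (𝓞 K)) : ℝ) := by
    have h1 : Ideal.absNorm (𝔟₂ : Ideal (𝓞 K)) = 2 ^ finrank ℤ (𝓞 K) :=
      Ideal.absNorm_span_natCast 2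
    have h3 : 0 < finrank ℤ (𝓞 K) := by
      rw [RingOfIntegers.rank]; exact finrank_pos
    have h4 : 2 ^ 1 ≤ 2 ^ finrank ℤ (𝓞 K) := Nat.pow_le_pow_right (by norm_num) h3
    rw [h1]
    exact_mod_cast h4
  set M : ℝ := 2 * (Kb 1 + Kb 𝔟₂) + Kb 1 with hM
  have hMs : ∀ s : ℝ, 1 < s → s ≤ 2 → (s - 1) * Z s ≤ M := by
    intro s hs1 hs2
    have e1 := (hZ 1 s hs1 hs2).2
    have e2 := (hZ 𝔟₂ s hs1 hs2).2
    rw [hcl1] at e1
    rw [hcl2] at e2
    simp only [OneMemClass.coe_one, Ideal.one_eq_top, Ideal.absNorm_top, Nat.cast_one,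
      Real.one_rpow, one_mul] at e1
    exact apriori_bound hN2 hs1 hs2 (partialZeta_nonneg 1 s) e1 e2
  set D : ClassGroup (𝓞 K) → ℝ := fun c => Kb (𝔟 c) +
    Real.log (Ideal.absNorm ((𝔟 c : (Ideal (𝓞 K))⁰) : Ideal (𝓞 K)) : ℝ) *
      (Ideal.absNorm ((𝔟 c : (Ideal (𝓞 K))⁰) : Ideal (𝓞 K)) : ℝ) * (M + Kb (𝔟 c)) with hD
  have hDs : ∀ (c : ClassGroup (𝓞 K)) (s : ℝ), 1 < s → s ≤ 2 → |Z s - partialZeta c s| ≤ D c := by
    intro c s hs1 hs2
    have e := (hZ (𝔟 c) s hs1 hs2).2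
    rw [h𝔟' c] at e
    exact abs_sub_le_of_twisted (hN1 c) hs1 hs2 (partialZeta_nonneg c s) (hMs s hs1 hs2) e
  have hD0 : ∀ c, 0 ≤ D c := fun c => (abs_nonneg _).trans (hDs c 2 (by norm_num) le_rfl)
  refine ⟨2 * ∑ c, D c, fun s hs1 hs2 c c' => ?_⟩
  have e1 := hDs c s hs1 hs2
  have e2 := hDs c' s hs1 hs2
  have e3 : D c ≤ ∑ c, D c := Finset.single_le_sum (fun c _ => hD0 c) (Finset.mem_univ c)
  have e4 : D c' ≤ ∑ c, D c := Finset.single_le_sum (fun c _ => hD0 c) (Finset.mem_univ c')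
  have e5 : partialZeta c s - partialZeta c' s =
      (Z s - partialZeta c' s) - (Z s - partialZeta c s) := by ring
  rw [e5]
  refine (abs_sub _ _).trans ?_
  linarith

/-- **Partial zeta functions of two ideal classes differ by a bounded amount on `(1, 2]`.** -/
theorem exists_bound_partialZeta_sub :
    ∃ C : ℝ, ∀ s : ℝ, 1 < s → s ≤ 2 → ∀ c c' : ClassGroup (𝓞 K),
      |(∑' I : {I : (Ideal (𝓞 K))⁰ // ClassGroup.mk0 I = c},
          (Ideal.absNorm (I.1 : Ideal (𝓞 K)) : ℝ) ^ (-s)) -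
        ∑' I : {I : (Ideal (𝓞 K))⁰ // ClassGroup.mk0 I = c'},
          (Ideal.absNorm (I.1 : Ideal (𝓞 K)) : ℝ) ^ (-s)| ≤ C :=
  exists_bound_partialZeta K

/-- The class group `L`-series as a finite combination of partial zeta functions. -/
theorem classLSeries_eq_sum (χ : ClassGroup (𝓞 K) →* ℂˣ) {s : ℝ} (hs : 1 < s) :
    ∑' I : (Ideal (𝓞 K))⁰, (χ (ClassGroup.mk0 I) : ℂ) *
        (((Ideal.absNorm (I : Ideal (𝓞 K)) : ℝ) ^ (-s) : ℝ) : ℂ) =
      ∑ c : ClassGroup (𝓞 K), (χ c : ℂ) * ((partialZeta c s : ℝ) : ℂ) := by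
  classical
  set a : (Ideal (𝓞 K))⁰ → ℂ := fun I => (χ (ClassGroup.mk0 I) : ℂ) *
    (((Ideal.absNorm (I : Ideal (𝓞 K)) : ℝ) ^ (-s) : ℝ) : ℂ) with ha
  have hχ1 : ∀ c : ClassGroup (𝓞 K), ‖(χ c : ℂ)‖ = 1 := by
    intro c
    have h1 : (χ c : ℂ) ^ Fintype.card (ClassGroup (𝓞 K)) = 1 := by
      rw [← Units.val_pow_eq_pow_val, ← map_pow, pow_card_eq_one, map_one, Units.val_one]
    exact Complex.norm_eq_one_of_pow_eq_one h1 Fintype.card_ne_zero
  have hnorm : ∀ I : (Ideal (𝓞 K))⁰,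
      ‖a I‖ = (Ideal.absNorm (I : Ideal (𝓞 K)) : ℝ) ^ (-s) := by
    intro I
    rw [ha]
    simp only [norm_mul, hχ1, one_mul, Complex.norm_real, Real.norm_eq_abs]
    exact abs_of_nonneg (Real.rpow_nonneg (Nat.cast_nonneg _) _)
  have hsa : Summable a :=
    Summable.of_norm ((summable_absNorm_rpow K hs).congr fun I => (hnorm I).symm)
  let e := Equiv.sigmaFiberEquiv (ClassGroup.mk0 : (Ideal (𝓞 K))⁰ → ClassGroup (𝓞 K))
  have hsσ : Summable (a ∘ e) := (e.summable_iff).mpr hsa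
  have h1 : ∑' I, a I = ∑' p : (Σ c : ClassGroup (𝓞 K), {I : (Ideal (𝓞 K))⁰ //
      ClassGroup.mk0 I = c}), (a ∘ e) p := (e.tsum_eq a).symm
  rw [h1, hsσ.tsum_sigma, tsum_fintype]
  refine Finset.sum_congr rfl fun c _ => ?_
  rw [partialZeta, Complex.ofReal_tsum, ← tsum_mul_left]
  refine tsum_congr fun I => ?_
  change (χ (ClassGroup.mk0 I.1) : ℂ) * _ = _
  rw [I.2]
  rfl

/-- **Boundedness of class group `L`-series**: uniform version. -/
theorem exists_bound_classLSeries_forall :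
    ∃ C : ℝ, ∀ χ : ClassGroup (𝓞 K) →* ℂˣ, χ ≠ 1 → ∀ s : ℝ, 1 < s → s ≤ 2 →
      ‖∑' I : (Ideal (𝓞 K))⁰, (χ (ClassGroup.mk0 I) : ℂ) *
        (((Ideal.absNorm (I : Ideal (𝓞 K)) : ℝ) ^ (-s) : ℝ) : ℂ)‖ ≤ C := by
  classical
  obtain ⟨C, hC⟩ := exists_bound_partialZeta K
  refine ⟨Fintype.card (ClassGroup (𝓞 K)) * C, fun χ hχ s hs1 hs2 => ?_⟩
  have hχ1 : ∀ c : ClassGroup (𝓞 K), ‖(χ c : ℂ)‖ = 1 := by
    intro c
    have h1 : (χ c : ℂ) ^ Fintype.card (ClassGroup (𝓞 K)) = 1 := by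
      rw [← Units.val_pow_eq_pow_val, ← map_pow, pow_card_eq_one, map_one, Units.val_one]
    exact Complex.norm_eq_one_of_pow_eq_one h1 Fintype.card_ne_zero
  have hsum0 : ∑ c : ClassGroup (𝓞 K), (χ c : ℂ) = 0 := by
    have hne : ((Units.coeHom ℂ).comp χ) ≠ 1 := by
      intro h
      apply hχ
      ext c
      have := DFunLike.congr_fun h c
      simpa using this
    exact sum_hom_units_eq_zero ((Units.coeHom ℂ).comp χ) hne
  rw [classLSeries_eq_sum K χ hs1]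
  have e : ∑ c : ClassGroup (𝓞 K), (χ c : ℂ) * ((partialZeta c s : ℝ) : ℂ) =
      ∑ c : ClassGroup (𝓞 K), (χ c : ℂ) *
        (((partialZeta c s - partialZeta (1 : ClassGroup (𝓞 K)) s : ℝ)) : ℂ) := by
    have : ∑ c : ClassGroup (𝓞 K), (χ c : ℂ) *
        (((partialZeta c s - partialZeta (1 : ClassGroup (𝓞 K)) s : ℝ)) : ℂ) =
        ∑ c : ClassGroup (𝓞 K), (χ c : ℂ) * ((partialZeta c s : ℝ) : ℂ) -
          (∑ c : ClassGroup (𝓞 K), (χ c : ℂ)) *
            ((partialZeta (1 : ClassGroup (𝓞 K)) s : ℝ) : ℂ) := by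
      rw [Finset.sum_mul, ← Finset.sum_sub_distrib]
      refine Finset.sum_congr rfl fun c _ => ?_
      push_cast
      ring
    rw [this, hsum0, zero_mul, sub_zero]
  rw [e]
  refine (norm_sum_le _ _).trans ?_
  calc ∑ c : ClassGroup (𝓞 K), ‖(χ c : ℂ) *
        (((partialZeta c s - partialZeta (1 : ClassGroup (𝓞 K)) s : ℝ)) : ℂ)‖
      ≤ ∑ _c : ClassGroup (𝓞 K), C := by
        refine Finset.sum_le_sum fun c _ => ?_
        rw [norm_mul, hχ1, one_mul, Complex.norm_real, Real.norm_eq_abs]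
        exact hC s hs1 hs2 c 1
    _ = Fintype.card (ClassGroup (𝓞 K)) * C := by
        rw [Finset.sum_const, Finset.card_univ, nsmul_eq_mul]

/-- **Boundedness of class group `L`-series** for a nontrivial character of the class group:
`L(s, χ) = O(1)` as `s → 1⁺`. -/
theorem exists_bound_classLSeries (χ : ClassGroup (𝓞 K) →* ℂˣ) (hχ : χ ≠ 1) :
    ∃ C : ℝ, ∀ s : ℝ, 1 < s → s ≤ 2 →
      ‖∑' I : (Ideal (𝓞 K))⁰, (χ (ClassGroup.mk0 I) : ℂ) *
        (((Ideal.absNorm (I : Ideal (𝓞 K)) : ℝ) ^ (-s) : ℝ) : ℂ)‖ ≤ C := by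
  obtain ⟨C, hC⟩ := exists_bound_classLSeries_forall K
  exact ⟨C, hC χ hχ⟩

end Fermat.Agent.S14.H12
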